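import Mathlib

/-!
# P-S48 (Deligne–Serre), block DS3: arithmetic of the class equation

Pure arithmetic over `ℕ`: if `n - 1 = ∑ i, k i * (e i - 1)` with `n = ν i * e i * k i`,
`ν i ∈ {1, 2}`, `2 ≤ e i`, then some `ν i * k i ≤ 12`.
(The solutions are the classical ones: cyclic, dihedral, `A₄`, `S₄`, `A₅`.)
-/

set_option autoImplicit false

namespace Fermat.Agent.S48x.Group

/-- For `e ≥ 2` the product `e * k` is `2k`, `3k`, `4k`, `5k` or at least `6k`. -/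
theorem mul_small_cases {e k p : ℕ} (he : 2 ≤ e) (h : e * k = p) :
    2 * k = p ∨ 3 * k = p ∨ 4 * k = p ∨ 5 * k = p ∨ 6 * k ≤ p := by
  rcases Nat.lt_or_ge e 6 with h6 | h6
  · interval_cases e
    · exact Or.inl h
    · exact Or.inr (Or.inl h)
    · exact Or.inr (Or.inr (Or.inl h))
    · exact Or.inr (Or.inr (Or.inr (Or.inl h)))
  · refine Or.inr (Or.inr (Or.inr (Or.inr ?_)))
    calc 6 * k ≤ e * k := Nat.mul_le_mul_right k h6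
      _ = p := h

/-- the term `k * (e - 1)` rewritten as `p - k` with `p = e * k`. -/
theorem term_eq {e k p : ℕ} (h : e * k = p) : k * (e - 1) = p - k := by
  rw [Nat.mul_sub_one, Nat.mul_comm k e, h]

theorem arith_one {n ν e k : ℕ} (hν : ν = 1 ∨ ν = 2) (he : 2 ≤ e)
    (hn : ν * (e * k) = n) (hsum : k * (e - 1) + 1 = n) (hbig : 13 ≤ ν * k) : False := by
  obtain ⟨p, hp⟩ : ∃ p, e * k = p := ⟨_, rfl⟩
  rw [term_eq hp] at hsum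
  rw [hp] at hn
  have h2 : 2 * k ≤ p := by
    calc 2 * k ≤ e * k := Nat.mul_le_mul_right k he
      _ = p := hp
  rcases hν with rfl | rfl <;> omega

theorem arith_two {n ν₁ e₁ k₁ ν₂ e₂ k₂ : ℕ}
    (hν₁ : ν₁ = 1 ∨ ν₁ = 2) (he₁ : 2 ≤ e₁) (hn₁ : ν₁ * (e₁ * k₁) = n) (hbig₁ : 13 ≤ ν₁ * k₁)
    (hν₂ : ν₂ = 1 ∨ ν₂ = 2) (he₂ : 2 ≤ e₂) (hn₂ : ν₂ * (e₂ * k₂) = n) (hbig₂ : 13 ≤ ν₂ * k₂)
    (hsum : k₁ * (e₁ - 1) + k₂ * (e₂ - 1) + 1 = n) : False := by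
  obtain ⟨p₁, hp₁⟩ : ∃ p, e₁ * k₁ = p := ⟨_, rfl⟩
  obtain ⟨p₂, hp₂⟩ : ∃ p, e₂ * k₂ = p := ⟨_, rfl⟩
  rw [term_eq hp₁, term_eq hp₂] at hsum
  rw [hp₁] at hn₁
  rw [hp₂] at hn₂
  have c₁ := mul_small_cases he₁ hp₁
  have c₂ := mul_small_cases he₂ hp₂
  rcases hν₁ with rfl | rfl <;> rcases hν₂ with rfl | rfl <;>
    rcases c₁ with c₁ | c₁ | c₁ | c₁ | c₁ <;> rcases c₂ with c₂ | c₂ | c₂ | c₂ | c₂ <;> omega

/-- three classes, one of them with `ν = 1`: impossible by size alone. -/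
theorem arith_three_lin {n p₁ p₂ p₃ k₁ k₂ k₃ : ℕ}
    (t₁ : 2 * k₁ ≤ p₁) (t₂ : 2 * k₂ ≤ p₂) (t₃ : 2 * k₃ ≤ p₃)
    (h₁ : p₁ = n) (h₂ : n ≤ 2 * p₂) (h₃ : n ≤ 2 * p₃) (hk : 1 ≤ k₁)
    (hsum : (p₁ - k₁) + (p₂ - k₂) + (p₃ - k₃) + 1 = n) : False := by
  omega

/-- all `ν = 2`, three classes, the first one with `e = 2`. -/
theorem arith_three_aux2 {p k₁ k₂ k₃ : ℕ} (c₁ : 2 * k₁ = p)
    (c₂ : 2 * k₂ = p ∨ 3 * k₂ = p ∨ 4 * k₂ = p ∨ 5 * k₂ = p ∨ 6 * k₂ ≤ p)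
    (c₃ : 2 * k₃ = p ∨ 3 * k₃ = p ∨ 4 * k₃ = p ∨ 5 * k₃ = p ∨ 6 * k₃ ≤ p)
    (h₂ : 7 ≤ k₂) (h₃ : 7 ≤ k₃) (hsum : k₁ + k₂ + k₃ = p + 1) : False := by
  rcases c₂ with c₂ | c₂ | c₂ | c₂ | c₂ <;> rcases c₃ with c₃ | c₃ | c₃ | c₃ | c₃ <;> omega

theorem weaken_cases {p k : ℕ}
    (c : 2 * k = p ∨ 3 * k = p ∨ 4 * k = p ∨ 5 * k = p ∨ 6 * k ≤ p) :
    2 * k = p ∨ 3 * k ≤ p := by
  rcases c with c | c | c | c | c
  · exact Or.inl c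
  · exact Or.inr (by omega)
  · exact Or.inr (by omega)
  · exact Or.inr (by omega)
  · exact Or.inr (by omega)

/-- the all-`ν = 2` case with three classes (the `(2,2,m)`, `(2,3,3)`, `(2,3,4)`, `(2,3,5)` analysis). -/
theorem arith_three_aux {p k₁ k₂ k₃ : ℕ}
    (c₁ : 2 * k₁ = p ∨ 3 * k₁ = p ∨ 4 * k₁ = p ∨ 5 * k₁ = p ∨ 6 * k₁ ≤ p)
    (c₂ : 2 * k₂ = p ∨ 3 * k₂ = p ∨ 4 * k₂ = p ∨ 5 * k₂ = p ∨ 6 * k₂ ≤ p)
    (c₃ : 2 * k₃ = p ∨ 3 * k₃ = p ∨ 4 * k₃ = p ∨ 5 * k₃ = p ∨ 6 * k₃ ≤ p)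
    (h₁ : 7 ≤ k₁) (h₂ : 7 ≤ k₂) (h₃ : 7 ≤ k₃)
    (hsum : k₁ + k₂ + k₃ = p + 1) : False := by
  have hs2 : k₂ + k₁ + k₃ = p + 1 := by linarith
  have hs3 : k₃ + k₁ + k₂ = p + 1 := by linarith
  rcases weaken_cases c₁ with a₁ | a₁
  · exact arith_three_aux2 a₁ c₂ c₃ h₂ h₃ hsum
  · rcases weaken_cases c₂ with a₂ | a₂
    · exact arith_three_aux2 a₂ c₁ c₃ h₁ h₃ hs2
    · rcases weaken_cases c₃ with a₃ | a₃
      · exact arith_three_aux2 a₃ c₁ c₂ h₁ h₂ hs3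
      · clear c₁ c₂ c₃ hs2 hs3
        omega

theorem arith_three {n ν₁ e₁ k₁ ν₂ e₂ k₂ ν₃ e₃ k₃ : ℕ}
    (hν₁ : ν₁ = 1 ∨ ν₁ = 2) (he₁ : 2 ≤ e₁) (hn₁ : ν₁ * (e₁ * k₁) = n) (hbig₁ : 13 ≤ ν₁ * k₁)
    (hν₂ : ν₂ = 1 ∨ ν₂ = 2) (he₂ : 2 ≤ e₂) (hn₂ : ν₂ * (e₂ * k₂) = n) (hbig₂ : 13 ≤ ν₂ * k₂)
    (hν₃ : ν₃ = 1 ∨ ν₃ = 2) (he₃ : 2 ≤ e₃) (hn₃ : ν₃ * (e₃ * k₃) = n) (hbig₃ : 13 ≤ ν₃ * k₃)
    (hsum : k₁ * (e₁ - 1) + k₂ * (e₂ - 1) + k₃ * (e₃ - 1) + 1 = n) : False := by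
  obtain ⟨p₁, hp₁⟩ : ∃ p, e₁ * k₁ = p := ⟨_, rfl⟩
  obtain ⟨p₂, hp₂⟩ : ∃ p, e₂ * k₂ = p := ⟨_, rfl⟩
  obtain ⟨p₃, hp₃⟩ : ∃ p, e₃ * k₃ = p := ⟨_, rfl⟩
  rw [term_eq hp₁, term_eq hp₂, term_eq hp₃] at hsum
  rw [hp₁] at hn₁
  rw [hp₂] at hn₂
  rw [hp₃] at hn₃
  have t₁ : 2 * k₁ ≤ p₁ := by
    calc 2 * k₁ ≤ e₁ * k₁ := Nat.mul_le_mul_right k₁ he₁
      _ = p₁ := hp₁
  have t₂ : 2 * k₂ ≤ p₂ := by
    calc 2 * k₂ ≤ e₂ * k₂ := Nat.mul_le_mul_right k₂ he₂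
      _ = p₂ := hp₂
  have t₃ : 2 * k₃ ≤ p₃ := by
    calc 2 * k₃ ≤ e₃ * k₃ := Nat.mul_le_mul_right k₃ he₃
      _ = p₃ := hp₃
  have q₁ : p₁ = n ∨ 2 * p₁ = n := by
    rcases hν₁ with h | h
    · left; rw [h, one_mul] at hn₁; exact hn₁
    · right; rw [h] at hn₁; exact hn₁
  have q₂ : p₂ = n ∨ 2 * p₂ = n := by
    rcases hν₂ with h | h
    · left; rw [h, one_mul] at hn₂; exact hn₂
    · right; rw [h] at hn₂; exact hn₂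
  have q₃ : p₃ = n ∨ 2 * p₃ = n := by
    rcases hν₃ with h | h
    · left; rw [h, one_mul] at hn₃; exact hn₃
    · right; rw [h] at hn₃; exact hn₃
  have b₁ : 1 ≤ k₁ := by
    rcases hν₁ with h | h <;> rw [h] at hbig₁ <;> omega
  have b₂ : 1 ≤ k₂ := by
    rcases hν₂ with h | h <;> rw [h] at hbig₂ <;> omega
  have b₃ : 1 ≤ k₃ := by
    rcases hν₃ with h | h <;> rw [h] at hbig₃ <;> omega
  have l₁ : n ≤ 2 * p₁ := by omega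
  have l₂ : n ≤ 2 * p₂ := by omega
  have l₃ : n ≤ 2 * p₃ := by omega
  rcases q₁ with q₁ | q₁
  · exact arith_three_lin t₁ t₂ t₃ q₁ l₂ l₃ b₁ hsum
  rcases q₂ with q₂ | q₂
  · exact arith_three_lin t₂ t₁ t₃ q₂ l₁ l₃ b₂ (by omega)
  rcases q₃ with q₃ | q₃
  · exact arith_three_lin t₃ t₁ t₂ q₃ l₁ l₂ b₃ (by omega)
  -- all ν = 2
  have e12 : p₁ = p₂ := by omega
  have e13 : p₁ = p₃ := by omega
  have g₁ : 7 ≤ k₁ := by
    rcases hν₁ with h | h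
    · rw [h, one_mul] at hn₁; omega
    · rw [h] at hbig₁; omega
  have g₂ : 7 ≤ k₂ := by
    rcases hν₂ with h | h
    · rw [h, one_mul] at hn₂; omega
    · rw [h] at hbig₂; omega
  have g₃ : 7 ≤ k₃ := by
    rcases hν₃ with h | h
    · rw [h, one_mul] at hn₃; omega
    · rw [h] at hbig₃; omega
  have hs : k₁ + k₂ + k₃ = p₁ + 1 := by omega
  have c₁ := mul_small_cases he₁ hp₁
  have c₂ := mul_small_cases he₂ hp₂
  have c₃ := mul_small_cases he₃ hp₃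
  rw [← e12] at c₂
  rw [← e13] at c₃
  exact arith_three_aux c₁ c₂ c₃ g₁ g₂ g₃ hs

/-- **Arithmetic of the class equation.**  If `n - 1 = ∑ i, k i * (e i - 1)` where
`n = ν i * e i * k i`, `ν i ∈ {1,2}`, `2 ≤ e i` for every `i` of a nonempty finite index type,
then some `ν i * k i ≤ 12`. -/
theorem exists_small_index {ι : Type*} [Fintype ι] [Nonempty ι] (n : ℕ) (ν e k : ι → ℕ)
    (hν : ∀ i, ν i = 1 ∨ ν i = 2) (he : ∀ i, 2 ≤ e i)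
    (hn : ∀ i, ν i * (e i * k i) = n)
    (hsum : ∑ i, k i * (e i - 1) + 1 = n) :
    ∃ i, ν i * k i ≤ 12 := by
  classical
  by_contra hcon
  simp only [not_exists, not_le] at hcon
  have hbig : ∀ i, 13 ≤ ν i * k i := fun i => hcon i
  have hterm : ∀ i, n ≤ 4 * (k i * (e i - 1)) := by
    intro i
    have h1 := hn i
    have h2 : 2 * k i ≤ e i * k i := Nat.mul_le_mul_right _ (he i)
    rw [term_eq (rfl : e i * k i = e i * k i)]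
    rcases hν i with h | h <;> rw [h] at h1 <;> omega
  have hcard : Fintype.card ι * n ≤ 4 * ∑ i, k i * (e i - 1) := by
    rw [Finset.mul_sum]
    calc Fintype.card ι * n = ∑ _i : ι, n := by simp
      _ ≤ ∑ i, 4 * (k i * (e i - 1)) := Finset.sum_le_sum (fun i _ => hterm i)
  have hc : Fintype.card ι < 4 := by
    rcases Nat.lt_or_ge (Fintype.card ι) 4 with h | h
    · exact h
    · have : 4 * n ≤ Fintype.card ι * n := Nat.mul_le_mul_right n h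
      omega
  have hc0 : 0 < Fintype.card ι := Fintype.card_pos
  have hcu : (Finset.univ : Finset ι).card = Fintype.card ι := Finset.card_univ
  have h123 : Fintype.card ι = 1 ∨ Fintype.card ι = 2 ∨ Fintype.card ι = 3 := by omega
  rcases h123 with h | h | h
  · rw [h] at hcu
    obtain ⟨a, ha⟩ := Finset.card_eq_one.mp hcu
    rw [ha, Finset.sum_singleton] at hsum
    exact arith_one (hν a) (he a) (hn a) hsum (hbig a)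
  · rw [h] at hcu
    obtain ⟨a, b, hab, hs⟩ := Finset.card_eq_two.mp hcu
    rw [hs, Finset.sum_pair hab] at hsum
    exact arith_two (hν a) (he a) (hn a) (hbig a) (hν b) (he b) (hn b) (hbig b) hsum
  · rw [h] at hcu
    obtain ⟨a, b, c, hab, hac, hbc, hs⟩ := Finset.card_eq_three.mp hcu
    rw [hs, Finset.sum_insert (by simp [hab, hac]), Finset.sum_pair hbc, ← add_assoc] at hsum
    exact arith_three (hν a) (he a) (hn a) (hbig a) (hν b) (he b) (hn b) (hbig b)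
      (hν c) (he c) (hn c) (hbig c) hsum

end Fermat.Agent.S48x.Group
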