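import Mathlib
import Fermat.Agent.S48x.Group.Arith

/-!
# P-S48 (Deligne–Serre), block DS3: the class equation for "CA-groups with a centre `Z`"

Abstract finite group theory.  Let `G` be a finite group, `Z` a central subgroup, and assume
* for every `g ∉ Z` the centraliser `C(g)` is commutative;
* for every `g ∉ Z` there is `g'` such that every conjugate of `g` lying in `C(g)` is `g` or `g'`.

Then `G = Z` or some `g ∉ Z` has `|G| ≤ 12 |C(g)|`.

(For `G ≤ GL₂(k)` of order prime to `char k` and `Z` = scalars this says: the image of `G` in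
`PGL₂` is cyclic, dihedral, or of order `12`, `24`, `60`.)
-/

set_option autoImplicit false

open scoped Pointwise
open MulAction

namespace Fermat.Agent.S48x.Group

/-- Sum of an invariant function over a finite `M`-set, grouped by orbits. -/
theorem sum_eq_sum_orbits {M X : Type*} [Group M] [MulAction M X] [Fintype X]
    [Fintype (orbitRel.Quotient M X)]
    (f : X → ℕ) (hf : ∀ (m : M) x, f (m • x) = f x) :
    ∑ x, f x = ∑ ω : orbitRel.Quotient M X, Nat.card (orbit M ω.out) * f ω.out := by
  classical
  rw [← Finset.sum_fiberwise (s := Finset.univ)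
    (g := fun x => (Quotient.mk'' x : orbitRel.Quotient M X)) (f := f)]
  apply Finset.sum_congr rfl
  intro ω _
  have hmem : ∀ x : X, (Quotient.mk'' x : orbitRel.Quotient M X) = ω ↔ x ∈ orbit M ω.out := by
    intro x
    constructor
    · intro hx
      have h1 : (Quotient.mk'' x : orbitRel.Quotient M X) = Quotient.mk'' ω.out := by
        rw [hx, Quotient.out_eq']
      exact Quotient.exact' h1
    · intro hx
      have h1 : (Quotient.mk'' x : orbitRel.Quotient M X) = Quotient.mk'' ω.out :=
        Quotient.sound' hx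
      rw [h1, Quotient.out_eq']
  have hconst : ∀ x ∈ Finset.univ.filter
      (fun x : X => (Quotient.mk'' x : orbitRel.Quotient M X) = ω), f x = f ω.out := by
    intro x hx
    rw [Finset.mem_filter] at hx
    obtain ⟨m, rfl⟩ := (hmem x).mp hx.2
    exact hf m _
  rw [Finset.sum_congr rfl hconst, Finset.sum_const, smul_eq_mul]
  congr 1
  rw [← Nat.card_eq_finsetCard]
  apply Nat.card_congr
  exact Equiv.subtypeEquivRight (fun x => by simp [hmem x])

section

variable {G : Type*} [Group G]

theorem mem_centralizer_singleton {g x : G} :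
    x ∈ Subgroup.centralizer ({g} : Set G) ↔ g * x = x * g := by
  rw [Subgroup.mem_centralizer_iff]
  simp

/-- conjugate of a centraliser. -/
theorem conj_smul_centralizer (a : ConjAct G) (g : G) :
    a • Subgroup.centralizer ({g} : Set G) = Subgroup.centralizer ({a • g} : Set G) := by
  ext x
  rw [Subgroup.mem_pointwise_smul_iff_inv_smul_mem, mem_centralizer_singleton,
    mem_centralizer_singleton, ConjAct.smul_def, ConjAct.smul_def]
  set c : G := ConjAct.ofConjAct a with hc
  have hinv : ConjAct.ofConjAct a⁻¹ = c⁻¹ := by simp [hc]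
  rw [hinv, inv_inv]
  constructor
  · intro h
    calc c * g * c⁻¹ * x = c * (g * (c⁻¹ * x * c)) * c⁻¹ := by group
      _ = c * (c⁻¹ * x * c * g) * c⁻¹ := by rw [h]
      _ = x * (c * g * c⁻¹) := by group
  · intro h
    calc g * (c⁻¹ * x * c) = c⁻¹ * (c * g * c⁻¹ * x) * c := by group
      _ = c⁻¹ * (x * (c * g * c⁻¹)) * c := by rw [h]
      _ = c⁻¹ * x * c * g := by group

end

section main

variable {G : Type*} [Group G]

/-- centralisers of non-central elements form a partition: `C(h) = C(g)` for `h ∈ C(g) ∖ Z`. -/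
theorem centralizer_eq_of_mem {Z : Subgroup G}
    (hab : ∀ g : G, g ∉ Z → ∀ x y : G, g * x = x * g → g * y = y * g → x * y = y * x)
    {g h : G} (hg : g ∉ Z) (hh : h ∈ Subgroup.centralizer ({g} : Set G)) (hhZ : h ∉ Z) :
    Subgroup.centralizer ({h} : Set G) = Subgroup.centralizer ({g} : Set G) := by
  have hgh : g * h = h * g := mem_centralizer_singleton.mp hh
  apply le_antisymm
  · intro x hx
    have hx' := mem_centralizer_singleton.mp hx
    exact mem_centralizer_singleton.mpr (hab h hhZ x g hx' hgh.symm).symm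
  · intro x hx
    have hx' := mem_centralizer_singleton.mp hx
    exact mem_centralizer_singleton.mpr (hab g hg x h hx' hgh).symm

theorem card_subgroup_eq_card_filter [Fintype G] [DecidableEq G] (H : Subgroup G)
    [DecidablePred (· ∈ H)] :
    Nat.card H = (Finset.univ.filter (· ∈ H)).card := by
  rw [Nat.card_eq_fintype_card, Fintype.card_subtype]

/-- the normaliser of `C(g)` has index at most `2` over `C(g)`. -/
theorem card_normalizer_centralizer_le [Fintype G] {g g' : G}
    (hN : ∀ x : G, g * (x * g * x⁻¹) = (x * g * x⁻¹) * g → x * g * x⁻¹ = g ∨ x * g * x⁻¹ = g') :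
    Nat.card (Subgroup.normalizer ((Subgroup.centralizer ({g} : Set G) : Subgroup G) : Set G))
      ≤ 2 * Nat.card (Subgroup.centralizer ({g} : Set G)) := by
  classical
  set C := Subgroup.centralizer ({g} : Set G) with hC
  rw [card_subgroup_eq_card_filter, card_subgroup_eq_card_filter]
  have hgC : g ∈ C := mem_centralizer_singleton.mpr rfl
  have key : ∀ x ∈ Subgroup.normalizer (C : Set G), x * g * x⁻¹ = g ∨ x * g * x⁻¹ = g' := by
    intro x hx
    have : x * g * x⁻¹ ∈ C := (Subgroup.mem_normalizer_iff.mp hx g).mp hgC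
    exact hN x (mem_centralizer_singleton.mp this)
  have hA : ∀ x : G, x * g * x⁻¹ = g → x ∈ C := by
    intro x hx
    apply mem_centralizer_singleton.mpr
    calc g * x = (x * g * x⁻¹) * x := by rw [hx]
      _ = x * g := by group
  by_cases hB : ∃ y ∈ Subgroup.normalizer (C : Set G), y * g * y⁻¹ = g'
  · obtain ⟨y, hyN, hy⟩ := hB
    have hsub : Finset.univ.filter (· ∈ Subgroup.normalizer (C : Set G)) ⊆
        Finset.univ.filter (· ∈ C) ∪ (Finset.univ.filter (· ∈ C)).image (fun c => y * c) := by
      intro x hx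
      rw [Finset.mem_filter] at hx
      rw [Finset.mem_union]
      rcases key x hx.2 with h | h
      · left
        rw [Finset.mem_filter]
        exact ⟨Finset.mem_univ _, hA x h⟩
      · right
        rw [Finset.mem_image]
        refine ⟨y⁻¹ * x, ?_, by group⟩
        rw [Finset.mem_filter]
        refine ⟨Finset.mem_univ _, hA _ ?_⟩
        calc y⁻¹ * x * g * (y⁻¹ * x)⁻¹ = y⁻¹ * (x * g * x⁻¹) * y := by group
          _ = y⁻¹ * (y * g * y⁻¹) * y := by rw [h, hy]
          _ = g := by group
    calc (Finset.univ.filter (· ∈ Subgroup.normalizer (C : Set G))).card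
        ≤ (Finset.univ.filter (· ∈ C) ∪
            (Finset.univ.filter (· ∈ C)).image (fun c => y * c)).card := Finset.card_le_card hsub
      _ ≤ (Finset.univ.filter (· ∈ C)).card +
            ((Finset.univ.filter (· ∈ C)).image (fun c => y * c)).card := Finset.card_union_le _ _
      _ ≤ (Finset.univ.filter (· ∈ C)).card + (Finset.univ.filter (· ∈ C)).card :=
          Nat.add_le_add_left Finset.card_image_le _
      _ = 2 * (Finset.univ.filter (· ∈ C)).card := by ring
  · have hsub : Finset.univ.filter (· ∈ Subgroup.normalizer (C : Set G)) ⊆ Finset.univ.filter (· ∈ C) := by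
      intro x hx
      rw [Finset.mem_filter] at hx ⊢
      refine ⟨Finset.mem_univ _, ?_⟩
      rcases key x hx.2 with h | h
      · exact hA x h
      · exact absurd ⟨x, hx.2, h⟩ hB
    calc (Finset.univ.filter (· ∈ Subgroup.normalizer (C : Set G))).card
        ≤ (Finset.univ.filter (· ∈ C)).card := Finset.card_le_card hsub
      _ ≤ 2 * (Finset.univ.filter (· ∈ C)).card := by omega

end main

section classEq

variable {G : Type*} [Group G] [Fintype G]

omit [Fintype G] in
/-- conjugation does not move elements of a central subgroup in or out. -/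
theorem conj_mem_central_iff {Z : Subgroup G} (hZ : ∀ z ∈ Z, ∀ g : G, z * g = g * z)
    (a : ConjAct G) (g : G) : a • g ∈ Z ↔ g ∈ Z := by
  rw [ConjAct.smul_def]
  set c : G := ConjAct.ofConjAct a
  constructor
  · intro h
    have : g = c * g * c⁻¹ := by
      calc g = c⁻¹ * (c * g * c⁻¹) * c := by group
        _ = c⁻¹ * (c * (c * g * c⁻¹)) := by rw [mul_assoc, hZ _ h c]
        _ = c * g * c⁻¹ := by group
    rw [this]; exact h
  · intro h
    have : c * g * c⁻¹ = g := by
      calc c * g * c⁻¹ = g * c * c⁻¹ := by rw [hZ g h c]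
        _ = g := by group
    rw [this]; exact h

omit [Fintype G] in
theorem card_smul_subgroup (a : ConjAct G) (T : Subgroup G) : Nat.card (a • T : Subgroup G)
    = Nat.card T :=
  (Nat.card_congr (Subgroup.equivSMul a T).toEquiv).symm

/-- **Class equation ⇒ a large abelian centraliser.** -/
theorem exists_large_centralizer (Z : Subgroup G) (hZ : ∀ z ∈ Z, ∀ g : G, z * g = g * z)
    (hab : ∀ g : G, g ∉ Z → ∀ x y : G, g * x = x * g → g * y = y * g → x * y = y * x)
    (hN : ∀ g : G, g ∉ Z → ∃ g' : G, ∀ x : G,
        g * (x * g * x⁻¹) = (x * g * x⁻¹) * g → x * g * x⁻¹ = g ∨ x * g * x⁻¹ = g')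
    (hne : ∃ g : G, g ∉ Z) :
    ∃ g : G, g ∉ Z ∧ Nat.card G ≤ 12 * Nat.card (Subgroup.centralizer ({g} : Set G)) := by
  classical
  have : Fintype (Subgroup G) := Fintype.ofFinite _
  have : Fintype (orbitRel.Quotient (ConjAct G) (Subgroup G)) := Fintype.ofFinite _
  set C : G → Subgroup G := fun g => Subgroup.centralizer ({g} : Set G) with hCdef
  have hZC : ∀ g, Z ≤ C g := fun g z hz => mem_centralizer_singleton.mpr (hZ z hz g).symm
  have hself : ∀ g, g ∈ C g := fun g => mem_centralizer_singleton.mpr rfl
  set z : ℕ := Nat.card Z with hz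
  have hzpos : 0 < z := Nat.card_pos
  -- the set of tori
  set 𝒯 : Set (Subgroup G) := {T | ∃ g, g ∉ Z ∧ T = C g} with h𝒯
  have h𝒯inv : ∀ (a : ConjAct G) (T : Subgroup G), a • T ∈ 𝒯 ↔ T ∈ 𝒯 := by
    have one : ∀ (a : ConjAct G) (T : Subgroup G), T ∈ 𝒯 → a • T ∈ 𝒯 := by
      rintro a T ⟨g, hg, rfl⟩
      exact ⟨a • g, fun h => hg ((conj_mem_central_iff hZ a g).mp h), conj_smul_centralizer a g⟩
    intro a T
    refine ⟨fun h => ?_, one a T⟩
    have := one a⁻¹ _ h
    rwa [inv_smul_smul] at this
  -- the counting function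
  set f : Subgroup G → ℕ := fun T => if T ∈ 𝒯 then Nat.card T - z else 0 with hf
  have hfinv : ∀ (a : ConjAct G) (T : Subgroup G), f (a • T) = f T := by
    intro a T
    simp only [hf]
    by_cases hT : T ∈ 𝒯
    · rw [if_pos hT, if_pos ((h𝒯inv a T).mpr hT), card_smul_subgroup]
    · rw [if_neg hT, if_neg (fun h => hT ((h𝒯inv a T).mp h))]
  -- total count
  have hcount : ∀ T : Subgroup G,
      (Finset.univ.filter (fun g : G => g ∉ Z ∧ C g = T)).card = f T := by
    intro T
    simp only [hf]
    by_cases hT : T ∈ 𝒯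
    · rw [if_pos hT]
      obtain ⟨g₀, hg₀, rfl⟩ := hT
      have hset : Finset.univ.filter (fun g : G => g ∉ Z ∧ C g = C g₀)
          = Finset.univ.filter (· ∈ C g₀) \ Finset.univ.filter (· ∈ Z) := by
        ext g
        simp only [Finset.mem_filter, Finset.mem_univ, true_and, Finset.mem_sdiff]
        constructor
        · rintro ⟨hgZ, hgC⟩
          exact ⟨hgC ▸ hself g, hgZ⟩
        · rintro ⟨hgC, hgZ⟩
          exact ⟨hgZ, centralizer_eq_of_mem hab hg₀ hgC hgZ⟩
      rw [hset, Finset.card_sdiff_of_subset, ← card_subgroup_eq_card_filter,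
        ← card_subgroup_eq_card_filter]
      intro g hg
      rw [Finset.mem_filter] at hg ⊢
      exact ⟨Finset.mem_univ _, hZC g₀ hg.2⟩
    · rw [if_neg hT, Finset.card_eq_zero, Finset.filter_eq_empty_iff]
      rintro g - ⟨hgZ, hgT⟩
      exact hT ⟨g, hgZ, hgT.symm⟩
  have htotal : ∑ T : Subgroup G, f T + z = Nat.card G := by
    have h1 : (Finset.univ.filter (fun g : G => g ∉ Z)).card
        = ∑ T : Subgroup G, (Finset.univ.filter (fun g : G => g ∉ Z ∧ C g = T)).card := by
      rw [Finset.card_eq_sum_card_fiberwise (f := C) (t := Finset.univ)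
        (fun g _ => Finset.mem_univ _)]
      apply Finset.sum_congr rfl
      intro T _
      rw [Finset.filter_filter]
    have h2 : (Finset.univ.filter (fun g : G => g ∉ Z)).card + z = Nat.card G := by
      rw [hz, card_subgroup_eq_card_filter Z, Nat.card_eq_fintype_card, ← Finset.card_univ,
        add_comm]
      exact Finset.card_filter_add_card_filter_not (· ∈ Z)
    rw [← h2, h1]
    congr 1
    exact Finset.sum_congr rfl (fun T _ => (hcount T).symm)
  -- orbit decomposition
  have horb := sum_eq_sum_orbits (M := ConjAct G) f hfinv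
  -- the index type of orbits of tori
  set ι := {ω : orbitRel.Quotient (ConjAct G) (Subgroup G) // ω.out ∈ 𝒯} with hι
  have : Fintype ι := Fintype.ofFinite _
  obtain ⟨g₀, hg₀⟩ := hne
  have : Nonempty ι := by
    refine ⟨⟨Quotient.mk'' (C g₀), ?_⟩⟩
    have hrel : (orbitRel (ConjAct G) (Subgroup G)).r (Quotient.mk'' (C g₀) : orbitRel.Quotient (ConjAct G) (Subgroup G)).out (C g₀) :=
      Quotient.exact' (Quotient.out_eq' _)
    have : (Quotient.mk'' (C g₀) : orbitRel.Quotient (ConjAct G) (Subgroup G)).out ∈ orbit (ConjAct G) (C g₀) := hrel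
    obtain ⟨a, ha⟩ := this
    rw [← ha]
    exact (h𝒯inv a _).mpr ⟨g₀, hg₀, rfl⟩
  -- per-orbit data
  have hdata : ∀ i : ι, ∃ ν e : ℕ, (ν = 1 ∨ ν = 2) ∧ 2 ≤ e ∧
      Nat.card (i.1.out : Subgroup G) = e * z ∧
      ν * (e * Nat.card (orbit (ConjAct G) i.1.out)) * z = Nat.card G := by
    rintro ⟨ω, hω⟩
    obtain ⟨g, hg, hT⟩ := hω
    set T : Subgroup G := ω.out with hTdef
    -- z ∣ |T|
    have hZT : Z ≤ T := hT ▸ hZC g
    have hdvd : z ∣ Nat.card T := Subgroup.card_dvd_of_le hZT
    obtain ⟨e, he⟩ := hdvd
    have hlt : z < Nat.card T := by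
      have hgT : g ∈ T := hT ▸ hself g
      have hsub : Finset.univ.filter (· ∈ Z) ⊂ Finset.univ.filter (· ∈ T) := by
        rw [Finset.ssubset_iff_of_subset]
        · exact ⟨g, by simp [hgT], by simp [hg]⟩
        · intro x hx
          rw [Finset.mem_filter] at hx ⊢
          exact ⟨hx.1, hZT hx.2⟩
      have := Finset.card_lt_card hsub
      rwa [← card_subgroup_eq_card_filter, ← card_subgroup_eq_card_filter] at this
    have he2 : 2 ≤ e := by
      by_contra hcon
      have : e ≤ 1 := by omega
      have : z * e ≤ z * 1 := Nat.mul_le_mul_left z this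
      omega
    -- normaliser
    have hTN : T ≤ Subgroup.normalizer (T : Set G) := Subgroup.le_normalizer
    have hdvdN : Nat.card T ∣ Nat.card (Subgroup.normalizer (T : Set G)) :=
      Subgroup.card_dvd_of_le hTN
    obtain ⟨ν, hν⟩ := hdvdN
    have hNle : Nat.card (Subgroup.normalizer (T : Set G)) ≤ 2 * Nat.card T := by
      obtain ⟨g', hg'⟩ := hN g hg
      have := card_normalizer_centralizer_le hg'
      rw [hT]
      exact this
    have hTpos : 0 < Nat.card T := Nat.card_pos
    have hνcases : ν = 1 ∨ ν = 2 := by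
      have hpos : 0 < Nat.card (Subgroup.normalizer (T : Set G)) := Nat.card_pos
      have h1 : 0 < ν := by
        rcases Nat.eq_zero_or_pos ν with h | h
        · rw [h, mul_zero] at hν; omega
        · exact h
      have h2 : ν ≤ 2 := by
        by_contra hcon
        have : 3 ≤ ν := by omega
        have : Nat.card T * 3 ≤ Nat.card T * ν := Nat.mul_le_mul_left _ this
        omega
      omega
    -- orbit-stabiliser
    have hstab : Nat.card (stabilizer (ConjAct G) T)
        = Nat.card (Subgroup.normalizer (T : Set G)) := by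
      apply Nat.card_congr
      refine Equiv.subtypeEquiv ConjAct.ofConjAct.toEquiv (fun a => ?_)
      rw [mem_stabilizer_iff]
      have := Subgroup.conjAct_pointwise_smul_iff (H := T) (g := ConjAct.ofConjAct a)
      rw [ConjAct.toConjAct_ofConjAct] at this
      exact this
    have horbstab : Nat.card (orbit (ConjAct G) T) * Nat.card (stabilizer (ConjAct G) T)
        = Nat.card G := by
      have h1 := Subgroup.card_mul_index (stabilizer (ConjAct G) T)
      rw [index_stabilizer, ← Nat.card_coe_set_eq] at h1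
      rw [mul_comm, h1]
      exact Nat.card_congr ConjAct.ofConjAct.toEquiv
    refine ⟨ν, e, hνcases, he2, by rw [he, mul_comm], ?_⟩
    rw [← horbstab, hstab, hν, he]
    ring
  choose ν e hν he hcardT hprod using hdata
  set n : ℕ := Nat.card G / z with hn
  have hzG : z ∣ Nat.card G := Subgroup.card_subgroup_dvd_card Z
  have hnz : n * z = Nat.card G := Nat.div_mul_cancel hzG
  have hprod' : ∀ i : ι, ν i * (e i * Nat.card (orbit (ConjAct G) i.1.out)) = n := by
    intro i
    have := hprod i
    rw [← hnz] at this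
    exact Nat.eq_of_mul_eq_mul_right hzpos this
  -- the sum identity
  have hsum : ∑ i : ι, Nat.card (orbit (ConjAct G) i.1.out) * (e i - 1) + 1 = n := by
    have hA : ∑ ω : orbitRel.Quotient (ConjAct G) (Subgroup G), Nat.card (orbit (ConjAct G) ω.out) * f ω.out
        = ∑ ω ∈ Finset.univ.filter (fun ω : orbitRel.Quotient (ConjAct G) (Subgroup G) => ω.out ∈ 𝒯),
            Nat.card (orbit (ConjAct G) ω.out) * f ω.out := by
      rw [Finset.sum_filter]
      apply Finset.sum_congr rfl
      intro ω _
      by_cases hω : ω.out ∈ 𝒯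
      · rw [if_pos hω]
      · rw [if_neg hω]
        simp only [hf, if_neg hω, mul_zero]
    have hB : ∑ ω ∈ Finset.univ.filter (fun ω : orbitRel.Quotient (ConjAct G) (Subgroup G) => ω.out ∈ 𝒯),
            Nat.card (orbit (ConjAct G) ω.out) * f ω.out
        = ∑ i : ι, Nat.card (orbit (ConjAct G) i.1.out) * f i.1.out :=
      Finset.sum_subtype _ (fun ω => by simp) _
    have hC : ∑ i : ι, Nat.card (orbit (ConjAct G) i.1.out) * f i.1.out
        = (∑ i : ι, Nat.card (orbit (ConjAct G) i.1.out) * (e i - 1)) * z := by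
      rw [Finset.sum_mul]
      apply Finset.sum_congr rfl
      intro i _
      simp only [hf, if_pos i.2, hcardT i]
      rw [mul_assoc]
      congr 1
      rw [Nat.sub_mul, one_mul]
    have hD : (∑ i : ι, Nat.card (orbit (ConjAct G) i.1.out) * (e i - 1) + 1) * z = n * z := by
      rw [add_mul, one_mul, ← hC, ← hB, ← hA, ← horb, hnz]
      exact htotal
    exact Nat.eq_of_mul_eq_mul_right hzpos hD
  -- arithmetic
  obtain ⟨i, hi⟩ := exists_small_index n ν e (fun i => Nat.card (orbit (ConjAct G) i.1.out))
    hν he hprod' hsum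
  obtain ⟨g, hg, hT⟩ := i.2
  refine ⟨g, hg, ?_⟩
  show Nat.card G ≤ 12 * Nat.card (C g)
  rw [← hT, hcardT i, ← hprod i]
  calc ν i * (e i * Nat.card (orbit (ConjAct G) i.1.out)) * z
      = (ν i * Nat.card (orbit (ConjAct G) i.1.out)) * (e i * z) := by ring
    _ ≤ 12 * (e i * z) := Nat.mul_le_mul_right _ hi

end classEq

end Fermat.Agent.S48x.Group
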