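import Mathlib

/-!
# P-S48 (Deligne–Serre), block DS3: `2 × 2` matrix algebra

Elementary facts about `Matrix (Fin 2) (Fin 2) k` over a field, all proved by explicit
computation (no eigenvectors, no algebraic closure):

* `exists_eq_add_of_commute` : the centraliser of a non-scalar matrix `g` is `k[g] = {a + b g}`;
* `commute_of_commute_nonscalar` : hence it is commutative;
* `eq_or_eq_or_eq_of_same_trace_det` : if `disc g ≠ 0`, at most two elements of `k[g]` have a
  given trace and determinant;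
* `disc_ne_zero_of_pow_eq_one` : a non-scalar `g` with `g ^ m = 1`, `(m : k) ≠ 0` has `disc g ≠ 0`.
-/

set_option autoImplicit false

open Matrix

namespace Fermat.Agent.S48x.Group

variable {k : Type*} [Field k]

/-- scalar `2 × 2` matrices. -/
def IsScalarMat (g : Matrix (Fin 2) (Fin 2) k) : Prop :=
  ∃ c : k, g = c • (1 : Matrix (Fin 2) (Fin 2) k)

theorem isScalarMat_iff (g : Matrix (Fin 2) (Fin 2) k) :
    IsScalarMat g ↔ g 0 1 = 0 ∧ g 1 0 = 0 ∧ g 0 0 = g 1 1 := by
  constructor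
  · rintro ⟨c, rfl⟩
    simp
  · rintro ⟨h01, h10, h⟩
    refine ⟨g 0 0, ?_⟩
    ext i j
    fin_cases i <;> fin_cases j <;> simp [h01, h10, h]

/-- the discriminant `tr² - 4 det` of the characteristic polynomial. -/
def disc2 (g : Matrix (Fin 2) (Fin 2) k) : k := g.trace ^ 2 - 4 * g.det

theorem trace_two (g : Matrix (Fin 2) (Fin 2) k) : g.trace = g 0 0 + g 1 1 := by
  simp [Matrix.trace, Fin.sum_univ_two]

theorem cayley_hamilton_two (g : Matrix (Fin 2) (Fin 2) k) :
    g * g = g.trace • g - g.det • (1 : Matrix (Fin 2) (Fin 2) k) := by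
  ext i j
  fin_cases i <;> fin_cases j <;>
    simp [Matrix.mul_apply, Fin.sum_univ_two, trace_two, Matrix.det_fin_two] <;> ring

/-- trace and determinant of `a + b g`. -/
theorem trace_add_smul (g : Matrix (Fin 2) (Fin 2) k) (a b : k) :
    (a • (1 : Matrix (Fin 2) (Fin 2) k) + b • g).trace = 2 * a + b * g.trace := by
  simp [trace_two]; ring

theorem det_add_smul (g : Matrix (Fin 2) (Fin 2) k) (a b : k) :
    (a • (1 : Matrix (Fin 2) (Fin 2) k) + b • g).det
      = a ^ 2 + a * b * g.trace + b ^ 2 * g.det := by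
  simp [trace_two, Matrix.det_fin_two]; ring

theorem eq_add_smul_of_entries {g x : Matrix (Fin 2) (Fin 2) k} {a b : k}
    (h00 : x 0 0 = a + b * g 0 0) (h01 : x 0 1 = b * g 0 1) (h10 : x 1 0 = b * g 1 0)
    (h11 : x 1 1 = a + b * g 1 1) :
    x = a • (1 : Matrix (Fin 2) (Fin 2) k) + b • g := by
  ext i j
  fin_cases i <;> fin_cases j
  · simpa using h00
  · simpa using h01
  · simpa using h10
  · simpa using h11

/-- **Centraliser of a non-scalar matrix.** -/
theorem exists_eq_add_of_commute {g x : Matrix (Fin 2) (Fin 2) k} (hg : ¬ IsScalarMat g)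
    (hx : x * g = g * x) :
    ∃ a b : k, x = a • (1 : Matrix (Fin 2) (Fin 2) k) + b • g := by
  have h00 := congrFun (congrFun hx 0) 0
  have h01 := congrFun (congrFun hx 0) 1
  have h10 := congrFun (congrFun hx 1) 0
  simp only [Matrix.mul_apply, Fin.sum_univ_two] at h00 h01 h10
  rw [isScalarMat_iff] at hg
  by_cases c01 : g 0 1 = 0
  · by_cases c10 : g 1 0 = 0
    · have hne : g 0 0 ≠ g 1 1 := fun h => hg ⟨c01, c10, h⟩
      have hne' : g 0 0 - g 1 1 ≠ 0 := sub_ne_zero.mpr hne
      have x01 : x 0 1 = 0 := by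
        have : x 0 1 * (g 0 0 - g 1 1) = 0 := by
          rw [c01] at h01
          linear_combination -h01
        rcases mul_eq_zero.mp this with h | h
        · exact h
        · exact absurd h hne'
      have x10 : x 1 0 = 0 := by
        have : x 1 0 * (g 0 0 - g 1 1) = 0 := by
          rw [c10] at h10
          linear_combination h10
        rcases mul_eq_zero.mp this with h | h
        · exact h
        · exact absurd h hne'
      refine ⟨x 0 0 - (x 0 0 - x 1 1) / (g 0 0 - g 1 1) * g 0 0,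
        (x 0 0 - x 1 1) / (g 0 0 - g 1 1), eq_add_smul_of_entries ?_ ?_ ?_ ?_⟩
      · ring
      · rw [x01, c01]; ring
      · rw [x10, c10]; ring
      · field_simp
        ring
    · refine ⟨x 0 0 - x 1 0 / g 1 0 * g 0 0, x 1 0 / g 1 0, eq_add_smul_of_entries ?_ ?_ ?_ ?_⟩
      · ring
      · field_simp
        linear_combination h00
      · field_simp
      · field_simp
        linear_combination h10
  · refine ⟨x 0 0 - x 0 1 / g 0 1 * g 0 0, x 0 1 / g 0 1, eq_add_smul_of_entries ?_ ?_ ?_ ?_⟩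
    · ring
    · field_simp
    · field_simp
      linear_combination -h00
    · field_simp
      linear_combination -h01

/-- the centraliser of a non-scalar matrix is commutative. -/
theorem mul_comm_of_commute_nonscalar {g x y : Matrix (Fin 2) (Fin 2) k} (hg : ¬ IsScalarMat g)
    (hx : x * g = g * x) (hy : y * g = g * y) : x * y = y * x := by
  obtain ⟨a, b, rfl⟩ := exists_eq_add_of_commute hg hx
  obtain ⟨c, d, rfl⟩ := exists_eq_add_of_commute hg hy
  simp only [add_mul, mul_add, Matrix.smul_mul, Matrix.mul_smul, mul_one, one_mul, smul_smul]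
  rw [mul_comm c a, mul_comm d a, mul_comm c b, mul_comm d b]
  abel

theorem not_isScalarMat_of_disc2_ne_zero {g : Matrix (Fin 2) (Fin 2) k} (hD : disc2 g ≠ 0) :
    ¬ IsScalarMat g := by
  rintro ⟨c, rfl⟩
  apply hD
  simp [disc2]
  ring

/-- coordinate form: the system `2a + bτ = t`, `a² + abτ + b²δ = d` has at most two solutions
when `τ² - 4δ ≠ 0`. -/
theorem coord_core {τ δ t d : k} (hD : τ ^ 2 - 4 * δ ≠ 0) {a₁ b₁ a₂ b₂ a₃ b₃ : k}
    (h₁t : 2 * a₁ + b₁ * τ = t) (h₁d : a₁ ^ 2 + a₁ * b₁ * τ + b₁ ^ 2 * δ = d)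
    (h₂t : 2 * a₂ + b₂ * τ = t) (h₂d : a₂ ^ 2 + a₂ * b₂ * τ + b₂ ^ 2 * δ = d)
    (h₃t : 2 * a₃ + b₃ * τ = t) (h₃d : a₃ ^ 2 + a₃ * b₃ * τ + b₃ ^ 2 * δ = d) :
    (a₁ = a₂ ∧ b₁ = b₂) ∨ (a₁ = a₃ ∧ b₁ = b₃) ∨ (a₂ = a₃ ∧ b₂ = b₃) := by
  by_cases h2 : (2 : k) = 0
  · -- characteristic 2
    have h4 : (4 : k) = 0 := by
      have : (4 : k) = 2 * 2 := by norm_num
      rw [this, h2, mul_zero]
    have hτ : τ ≠ 0 := by
      intro h
      apply hD
      rw [h, h4]
      ring
    have e₁ : b₁ * τ = t := by rw [← h₁t, h2]; ring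
    have e₂ : b₂ * τ = t := by rw [← h₂t, h2]; ring
    have e₃ : b₃ * τ = t := by rw [← h₃t, h2]; ring
    have b12 : b₁ = b₂ := mul_right_cancel₀ hτ (e₁.trans e₂.symm)
    have b13 : b₁ = b₃ := mul_right_cancel₀ hτ (e₁.trans e₃.symm)
    subst b12
    subst b13
    have q12 : (a₁ - a₂) * (a₁ + a₂ + b₁ * τ) = 0 := by linear_combination h₁d - h₂d
    have q13 : (a₁ - a₃) * (a₁ + a₃ + b₁ * τ) = 0 := by linear_combination h₁d - h₃d
    rcases mul_eq_zero.mp q12 with h | h
    · exact Or.inl ⟨sub_eq_zero.mp h, rfl⟩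
    · rcases mul_eq_zero.mp q13 with h' | h'
      · exact Or.inr (Or.inl ⟨sub_eq_zero.mp h', rfl⟩)
      · refine Or.inr (Or.inr ⟨?_, rfl⟩)
        linear_combination h - h'
  · -- characteristic ≠ 2
    have k₁ : b₁ ^ 2 * (τ ^ 2 - 4 * δ) = t ^ 2 - 4 * d := by
      rw [← h₁t, ← h₁d]; ring
    have k₂ : b₂ ^ 2 * (τ ^ 2 - 4 * δ) = t ^ 2 - 4 * d := by
      rw [← h₂t, ← h₂d]; ring
    have k₃ : b₃ ^ 2 * (τ ^ 2 - 4 * δ) = t ^ 2 - 4 * d := by
      rw [← h₃t, ← h₃d]; ring
    have s12 : b₁ ^ 2 = b₂ ^ 2 := mul_right_cancel₀ hD (k₁.trans k₂.symm)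
    have s13 : b₁ ^ 2 = b₃ ^ 2 := mul_right_cancel₀ hD (k₁.trans k₃.symm)
    have aeq : ∀ {a a' b : k}, 2 * a + b * τ = t → 2 * a' + b * τ = t → a = a' := by
      intro a a' b h h'
      have : 2 * a = 2 * a' := by linear_combination h - h'
      exact mul_left_cancel₀ h2 this
    rcases sq_eq_sq_iff_eq_or_eq_neg.mp s12 with h | h
    · subst h
      exact Or.inl ⟨aeq h₁t h₂t, rfl⟩
    · rcases sq_eq_sq_iff_eq_or_eq_neg.mp s13 with h' | h'
      · subst h'
        exact Or.inr (Or.inl ⟨aeq h₁t h₃t, rfl⟩)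
      · have h23 : b₂ = b₃ := by
          have : -b₂ = -b₃ := by rw [← h, ← h']  -- b₁ = -b₂, b₁ = -b₃
          exact neg_injective this
        subst h23
        exact Or.inr (Or.inr ⟨aeq h₂t h₃t, rfl⟩)

/-- **At most two elements of `k[g]` with a given trace and determinant** (`disc g ≠ 0`). -/
theorem eq_or_eq_or_eq_of_same_trace_det {g h₁ h₂ h₃ : Matrix (Fin 2) (Fin 2) k}
    (hD : disc2 g ≠ 0)
    (c₁ : h₁ * g = g * h₁) (c₂ : h₂ * g = g * h₂) (c₃ : h₃ * g = g * h₃)
    (t12 : h₁.trace = h₂.trace) (t13 : h₁.trace = h₃.trace)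
    (d12 : h₁.det = h₂.det) (d13 : h₁.det = h₃.det) :
    h₁ = h₂ ∨ h₁ = h₃ ∨ h₂ = h₃ := by
  have hg := not_isScalarMat_of_disc2_ne_zero hD
  obtain ⟨a₁, b₁, rfl⟩ := exists_eq_add_of_commute hg c₁
  obtain ⟨a₂, b₂, rfl⟩ := exists_eq_add_of_commute hg c₂
  obtain ⟨a₃, b₃, rfl⟩ := exists_eq_add_of_commute hg c₃
  rw [trace_add_smul, trace_add_smul] at t12 t13
  rw [det_add_smul, det_add_smul] at d12 d13
  have := coord_core (τ := g.trace) (δ := g.det) (t := 2 * a₁ + b₁ * g.trace)
    (d := a₁ ^ 2 + a₁ * b₁ * g.trace + b₁ ^ 2 * g.det) hD rfl rfl t12.symm d12.symm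
    t13.symm d13.symm
  rcases this with ⟨h, h'⟩ | ⟨h, h'⟩ | ⟨h, h'⟩
  · left; rw [h, h']
  · right; left; rw [h, h']
  · right; right; rw [h, h']

/-- the "conjugate" `tr g - g` (the adjugate). -/
theorem conj_props (g : Matrix (Fin 2) (Fin 2) k) :
    (g.trace • (1 : Matrix (Fin 2) (Fin 2) k) - g) * g = g * (g.trace • 1 - g) ∧
    (g.trace • (1 : Matrix (Fin 2) (Fin 2) k) - g).trace = g.trace ∧
    (g.trace • (1 : Matrix (Fin 2) (Fin 2) k) - g).det = g.det := by
  refine ⟨?_, ?_, ?_⟩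
  · simp [sub_mul, mul_sub]
  · simp [trace_two]; ring
  · simp [trace_two, Matrix.det_fin_two]; ring

/-- if `disc g ≠ 0`, an element of `k[g]` with the trace and determinant of `g` is `g` or
`tr g - g`. -/
theorem eq_or_eq_conj_of_same_trace_det {g h : Matrix (Fin 2) (Fin 2) k} (hD : disc2 g ≠ 0)
    (c : h * g = g * h) (ht : h.trace = g.trace) (hd : h.det = g.det) :
    h = g ∨ h = g.trace • (1 : Matrix (Fin 2) (Fin 2) k) - g := by
  obtain ⟨c', t', d'⟩ := conj_props g
  have hne : g ≠ g.trace • (1 : Matrix (Fin 2) (Fin 2) k) - g := by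
    intro h0
    apply hD
    have e00 := congrFun (congrFun h0 0) 0
    have e01 := congrFun (congrFun h0 0) 1
    have e10 := congrFun (congrFun h0 1) 0
    have e11 := congrFun (congrFun h0 1) 1
    simp [trace_two] at e00 e01 e10 e11
    simp only [disc2, trace_two, Matrix.det_fin_two]
    have a01 : 2 * g 0 1 = 0 := by linear_combination e01
    have a10 : 2 * g 1 0 = 0 := by linear_combination e10
    have a00 : g 0 0 = g 1 1 := by linear_combination e00
    rw [a00]
    linear_combination (2 * g 1 0) * a01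
  rcases eq_or_eq_or_eq_of_same_trace_det hD rfl c' c t'.symm ht.symm d'.symm hd.symm with
    h1 | h1 | h1
  · exact absurd h1 hne
  · exact Or.inl h1.symm
  · exact Or.inr h1.symm

theorem smul_one_add_smul_eq {g : Matrix (Fin 2) (Fin 2) k} (hg : ¬ IsScalarMat g) {x y z : k}
    (h : x • (1 : Matrix (Fin 2) (Fin 2) k) + y • g = z • 1) : y = 0 := by
  by_contra hy
  apply hg
  refine ⟨y⁻¹ * (z - x), ?_⟩
  have : y • g = (z - x) • (1 : Matrix (Fin 2) (Fin 2) k) := by
    rw [sub_smul, ← h]; abel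
  calc g = y⁻¹ • (y • g) := by rw [smul_smul, inv_mul_cancel₀ hy, one_smul]
    _ = (y⁻¹ * (z - x)) • 1 := by rw [this, smul_smul]

/-- binomial formula for `(τ + N)^m` when `N² = 0`. -/
theorem add_nilp_pow {N : Matrix (Fin 2) (Fin 2) k} (hN : N * N = 0) (τ : k) (m : ℕ) :
    (τ • (1 : Matrix (Fin 2) (Fin 2) k) + N) ^ m
      = (τ ^ m) • (1 : Matrix (Fin 2) (Fin 2) k) + ((m : k) * τ ^ (m - 1)) • N := by
  induction m with
  | zero => simp
  | succ m ih =>
    rw [pow_succ, ih]
    simp only [add_mul, mul_add, Matrix.smul_mul, Matrix.mul_smul, mul_one, one_mul, smul_smul,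
      hN, smul_zero, add_zero, Nat.add_sub_cancel]
    have e : (m : k) * τ ^ (m - 1) * τ = (m : k) * τ ^ m := by
      rcases Nat.eq_zero_or_pos m with h | h
      · subst h; simp
      · rw [mul_assoc, ← pow_succ, Nat.sub_add_cancel h]
    have e' : τ * ((m : k) * τ ^ (m - 1)) + τ ^ m = ((m + 1 : ℕ) : k) * τ ^ m := by
      push_cast
      linear_combination e
    rw [add_assoc, ← add_smul, e', pow_succ]
    try rw [mul_comm τ (τ ^ m)]

/-- **Semisimplicity of prime-to-characteristic elements**: a non-scalar `g` with `g ^ m = 1`,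
`(m : k) ≠ 0`, has non-zero discriminant. -/
theorem disc2_ne_zero_of_pow_eq_one {g : Matrix (Fin 2) (Fin 2) k} (hg : ¬ IsScalarMat g)
    {m : ℕ} (hm : (m : k) ≠ 0) (hgm : g ^ m = 1) : disc2 g ≠ 0 := by
  intro hD
  have hm0 : m ≠ 0 := by
    rintro rfl
    simp at hm
  have hdet : g.det ≠ 0 := by
    intro h0
    have : (g ^ m).det = 1 := by rw [hgm, Matrix.det_one]
    rw [Matrix.det_pow, h0, zero_pow hm0] at this
    exact zero_ne_one this
  by_cases h2 : (2 : k) = 0
  · -- characteristic 2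
    have h4 : (4 : k) = 0 := by
      have : (4 : k) = 2 * 2 := by norm_num
      rw [this, h2, mul_zero]
    have hτ : g.trace = 0 := by
      have : g.trace ^ 2 = 0 := by
        have := hD
        rw [disc2, h4, zero_mul, sub_zero] at this
        exact this
      exact pow_eq_zero_iff (two_ne_zero) |>.mp this
    have hsq : g * g = (-g.det) • (1 : Matrix (Fin 2) (Fin 2) k) := by
      rw [cayley_hamilton_two, hτ, zero_smul, zero_sub, neg_smul]
    have hodd : ∃ j, m = 2 * j + 1 := by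
      rcases Nat.even_or_odd' m with ⟨j, hj | hj⟩
      · exfalso
        apply hm
        rw [hj]
        push_cast
        rw [h2, zero_mul]
      · exact ⟨j, hj⟩
    obtain ⟨j, rfl⟩ := hodd
    have hpow : g ^ (2 * j + 1) = ((-g.det) ^ j) • g := by
      rw [pow_succ, pow_mul, pow_two, hsq, smul_pow, one_pow, Matrix.smul_mul, one_mul]
    rw [hpow] at hgm
    apply hg
    refine ⟨((-g.det) ^ j)⁻¹, ?_⟩
    have hne : (-g.det) ^ j ≠ 0 := pow_ne_zero _ (neg_ne_zero.mpr hdet)
    calc g = ((-g.det) ^ j)⁻¹ • (((-g.det) ^ j) • g) := by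
          rw [smul_smul, inv_mul_cancel₀ hne, one_smul]
      _ = ((-g.det) ^ j)⁻¹ • 1 := by rw [hgm]
  · -- characteristic ≠ 2
    set N : Matrix (Fin 2) (Fin 2) k := (2 : k) • g - g.trace • 1 with hNdef
    have hNN : N * N = 0 := by
      have : N * N = (disc2 g) • (1 : Matrix (Fin 2) (Fin 2) k) := by
        rw [hNdef]
        simp only [sub_mul, mul_sub, Matrix.smul_mul, Matrix.mul_smul, mul_one, one_mul, smul_smul,
          cayley_hamilton_two, smul_sub, disc2]
        ext i j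
        fin_cases i <;> fin_cases j <;> simp <;> ring
      rw [this, hD, zero_smul]
    have hNns : ¬ IsScalarMat N := by
      rintro ⟨c, hc⟩
      apply hg
      refine ⟨(2 : k)⁻¹ * (c + g.trace), ?_⟩
      have : (2 : k) • g = (c + g.trace) • (1 : Matrix (Fin 2) (Fin 2) k) := by
        rw [add_smul, ← hc, hNdef]; abel
      calc g = (2 : k)⁻¹ • ((2 : k) • g) := by rw [smul_smul, inv_mul_cancel₀ h2, one_smul]
        _ = ((2 : k)⁻¹ * (c + g.trace)) • 1 := by rw [this, smul_smul]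
    have h2g : (2 : k) • g = g.trace • (1 : Matrix (Fin 2) (Fin 2) k) + N := by
      rw [hNdef]; abel
    have hpow : ((2 : k) • g) ^ m = ((2 : k) ^ m) • (1 : Matrix (Fin 2) (Fin 2) k) := by
      rw [smul_pow, hgm]
    rw [h2g, add_nilp_pow hNN] at hpow
    have hy := smul_one_add_smul_eq hNns hpow
    -- now `m * τ^(m-1) = 0`, so `τ^(m-1) = 0`, so τ = 0 (if m ≥ 2) ...
    rw [hy, zero_smul, add_zero] at hpow
    have hτm : g.trace ^ m = (2 : k) ^ m := by
      have := congrFun (congrFun hpow 0) 0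
      simpa using this
    have hτ : g.trace ≠ 0 := by
      intro h0
      rw [h0, zero_pow hm0] at hτm
      exact pow_ne_zero m h2 hτm.symm
    rcases mul_eq_zero.mp hy with h | h
    · exact hm h
    · exact pow_ne_zero _ hτ h

end Fermat.Agent.S48x.Group
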