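import Mathlib
import Fermat.Agent.S48x.Group.Mat2
import Fermat.Agent.S48x.Group.ClassEq

/-!
# P-S48 (Deligne–Serre), block DS3: subgroups of `GL₂(k)` of order prime to the characteristic

For a finite field `k` and `G ≤ GL₂(k)` with `(|G| : k) ≠ 0`: either every element of `G` is
scalar, or some non-scalar `g ∈ G` has `|G| ≤ 12 |C_G(g)|`; `C_G(g)` is abelian and contains at
most two elements with a given trace and determinant.
-/

set_option autoImplicit false

open Matrix

namespace Fermat.Agent.S48x.Group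

variable {k : Type*} [Field k]

/-- the underlying matrix of an element of a subgroup of `GL₂(k)`. -/
abbrev matOf {G : Subgroup (GL (Fin 2) k)} (g : G) : Matrix (Fin 2) (Fin 2) k :=
  ((g : GL (Fin 2) k) : Matrix (Fin 2) (Fin 2) k)

theorem matOf_injective (G : Subgroup (GL (Fin 2) k)) :
    Function.Injective (matOf : G → Matrix (Fin 2) (Fin 2) k) := by
  intro a b h
  exact Subtype.ext (Units.ext h)

theorem matOf_mul {G : Subgroup (GL (Fin 2) k)} (a b : G) : matOf (a * b) = matOf a * matOf b := by
  simp [matOf]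

theorem matOf_one {G : Subgroup (GL (Fin 2) k)} : matOf (1 : G) = 1 := by
  simp [matOf]

theorem matOf_pow {G : Subgroup (GL (Fin 2) k)} (a : G) (n : ℕ) : matOf (a ^ n) = matOf a ^ n := by
  simp [matOf]

theorem matOf_mul_inv {G : Subgroup (GL (Fin 2) k)} (a : G) : matOf a * matOf a⁻¹ = 1 := by
  rw [← matOf_mul, mul_inv_cancel, matOf_one]

theorem isScalarMat_one : IsScalarMat (1 : Matrix (Fin 2) (Fin 2) k) := ⟨1, by simp⟩

theorem IsScalarMat.mul {a b : Matrix (Fin 2) (Fin 2) k} (ha : IsScalarMat a) (hb : IsScalarMat b) :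
    IsScalarMat (a * b) := by
  obtain ⟨c, rfl⟩ := ha
  obtain ⟨d, rfl⟩ := hb
  exact ⟨c * d, by simp [smul_smul, mul_comm]⟩

theorem isScalarMat_inv_of_mul_eq_one {a b : Matrix (Fin 2) (Fin 2) k} (ha : IsScalarMat a)
    (hab : a * b = 1) : IsScalarMat b := by
  obtain ⟨c, rfl⟩ := ha
  have hc : c ≠ 0 := by
    rintro rfl
    rw [zero_smul, zero_mul] at hab
    exact zero_ne_one hab
  refine ⟨c⁻¹, ?_⟩
  rw [Matrix.smul_mul, one_mul] at hab
  calc b = c⁻¹ • (c • b) := by rw [smul_smul, inv_mul_cancel₀ hc, one_smul]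
    _ = c⁻¹ • 1 := by rw [hab]

/-- the subgroup of scalar elements of `G`. -/
def scalarSubgroup (G : Subgroup (GL (Fin 2) k)) : Subgroup G where
  carrier := {g | IsScalarMat (matOf g)}
  mul_mem' := by
    intro a b ha hb
    show IsScalarMat (matOf (a * b))
    rw [matOf_mul]
    exact ha.mul hb
  one_mem' := by
    show IsScalarMat (matOf (1 : G))
    rw [matOf_one]
    exact isScalarMat_one
  inv_mem' := by
    intro a ha
    exact isScalarMat_inv_of_mul_eq_one ha (matOf_mul_inv a)

theorem mem_scalarSubgroup {G : Subgroup (GL (Fin 2) k)} (g : G) :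
    g ∈ scalarSubgroup G ↔ IsScalarMat (matOf g) := Iff.rfl

theorem matOf_eq_of_eq {G : Subgroup (GL (Fin 2) k)} {a b : G} (h : a = b) : matOf a = matOf b := by
  rw [h]

/-- elements of order prime to the characteristic have non-zero discriminant. -/
theorem disc2_matOf_ne_zero {G : Subgroup (GL (Fin 2) k)} (hcard : (Nat.card G : k) ≠ 0)
    {g : G} (hg : ¬ IsScalarMat (matOf g)) : disc2 (matOf g) ≠ 0 := by
  apply disc2_ne_zero_of_pow_eq_one hg hcard
  rw [← matOf_pow, pow_card_eq_one', matOf_one]

/-- **Main structural result in the prime-to-characteristic case.** -/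
theorem exists_large_torus (G : Subgroup (GL (Fin 2) k)) (hcard : (Nat.card G : k) ≠ 0)
    (hns : ∃ g : G, ¬ IsScalarMat (matOf g)) :
    ∃ g : G, ¬ IsScalarMat (matOf g) ∧
      Nat.card G ≤ 12 * Nat.card (Subgroup.centralizer ({g} : Set G)) := by
  classical
  haveI : Finite G := Nat.finite_of_card_ne_zero (by
    intro h
    rw [h] at hcard
    simp at hcard)
  haveI : Fintype G := Fintype.ofFinite _
  have hZ : ∀ z ∈ scalarSubgroup G, ∀ g : G, z * g = g * z := by
    intro z hz g
    apply matOf_injective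
    rw [matOf_mul, matOf_mul]
    obtain ⟨c, hc⟩ := (mem_scalarSubgroup z).mp hz
    rw [hc]
    simp
  have hab : ∀ g : G, g ∉ scalarSubgroup G → ∀ x y : G, g * x = x * g → g * y = y * g →
      x * y = y * x := by
    intro g hg x y hx hy
    apply matOf_injective
    rw [matOf_mul, matOf_mul]
    have hx' : matOf x * matOf g = matOf g * matOf x := by
      rw [← matOf_mul, ← matOf_mul, hx]
    have hy' : matOf y * matOf g = matOf g * matOf y := by
      rw [← matOf_mul, ← matOf_mul, hy]
    exact mul_comm_of_commute_nonscalar hg hx' hy'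
  have hN : ∀ g : G, g ∉ scalarSubgroup G → ∃ g' : G, ∀ x : G,
      g * (x * g * x⁻¹) = (x * g * x⁻¹) * g → x * g * x⁻¹ = g ∨ x * g * x⁻¹ = g' := by
    intro g hg
    have hD := disc2_matOf_ne_zero hcard hg
    by_cases hex : ∃ y : G, matOf y = (matOf g).trace • (1 : Matrix (Fin 2) (Fin 2) k) - matOf g
    · obtain ⟨y, hy⟩ := hex
      refine ⟨y, fun x hx => ?_⟩
      have hc : matOf (x * g * x⁻¹) * matOf g = matOf g * matOf (x * g * x⁻¹) := by
        rw [← matOf_mul, ← matOf_mul, hx]
      have hconj : matOf (x * g * x⁻¹)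
          = ((x : GL (Fin 2) k) : Matrix (Fin 2) (Fin 2) k) * matOf g
            * (((x : GL (Fin 2) k)⁻¹ : GL (Fin 2) k) : Matrix (Fin 2) (Fin 2) k) := by
        simp [matOf]
      have ht : (matOf (x * g * x⁻¹)).trace = (matOf g).trace := by
        rw [hconj]; exact Matrix.trace_units_conj _ _
      have hd : (matOf (x * g * x⁻¹)).det = (matOf g).det := by
        rw [hconj]; exact Matrix.det_units_conj _ _
      rcases eq_or_eq_conj_of_same_trace_det hD hc ht hd with h | h
      · exact Or.inl (matOf_injective G h)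
      · exact Or.inr (matOf_injective G (h.trans hy.symm))
    · refine ⟨g, fun x hx => ?_⟩
      have hc : matOf (x * g * x⁻¹) * matOf g = matOf g * matOf (x * g * x⁻¹) := by
        rw [← matOf_mul, ← matOf_mul, hx]
      have hconj : matOf (x * g * x⁻¹)
          = ((x : GL (Fin 2) k) : Matrix (Fin 2) (Fin 2) k) * matOf g
            * (((x : GL (Fin 2) k)⁻¹ : GL (Fin 2) k) : Matrix (Fin 2) (Fin 2) k) := by
        simp [matOf]
      have ht : (matOf (x * g * x⁻¹)).trace = (matOf g).trace := by
        rw [hconj]; exact Matrix.trace_units_conj _ _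
      have hd : (matOf (x * g * x⁻¹)).det = (matOf g).det := by
        rw [hconj]; exact Matrix.det_units_conj _ _
      rcases eq_or_eq_conj_of_same_trace_det hD hc ht hd with h | h
      · exact Or.inl (matOf_injective G h)
      · exact absurd ⟨_, h⟩ hex
  obtain ⟨g, hg⟩ := hns
  obtain ⟨g₁, hg₁, hle⟩ := exists_large_centralizer (scalarSubgroup G) hZ hab hN ⟨g, hg⟩
  exact ⟨g₁, hg₁, hle⟩

/-- in the centraliser of a `g` with non-zero discriminant, at most two elements have a given
trace and determinant. -/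
theorem card_le_two_of_same_trace_det {G : Subgroup (GL (Fin 2) k)} {g : G}
    (hD : disc2 (matOf g) ≠ 0) (S : Finset G)
    (hS : ∀ h ∈ S, g * h = h * g) (t d : k)
    (htd : ∀ h ∈ S, (matOf h).trace = t ∧ (matOf h).det = d) : S.card ≤ 2 := by
  classical
  by_contra hcon
  have h3 : 2 < S.card := by omega
  obtain ⟨a, ha, b, hb, c, hc, hab, hac, hbc⟩ := Finset.two_lt_card.mp h3
  have comm : ∀ h ∈ S, matOf h * matOf g = matOf g * matOf h := by
    intro h hh
    rw [← matOf_mul, ← matOf_mul, hS h hh]
  rcases eq_or_eq_or_eq_of_same_trace_det hD (comm a ha) (comm b hb) (comm c hc)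
      ((htd a ha).1.trans (htd b hb).1.symm) ((htd a ha).1.trans (htd c hc).1.symm)
      ((htd a ha).2.trans (htd b hb).2.symm) ((htd a ha).2.trans (htd c hc).2.symm) with h | h | h
  · exact hab (matOf_injective G h)
  · exact hac (matOf_injective G h)
  · exact hbc (matOf_injective G h)

end Fermat.Agent.S48x.Group
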