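import Mathlib
import Fermat.Agent.S48x.Group.Mat2
import Fermat.Agent.S48x.Group.Tori

/-!
# P-S48 (Deligne–Serre), block DS3: the case `ℓ ∣ |G|`

For `k` a field of characteristic `ℓ` and a semisimple `G ≤ GL₂(k)` containing an element of
order `ℓ`, two unipotent elements with different axes give `ℓ² (ℓ - 1) ≤ |G|`.
-/

set_option autoImplicit false

open Matrix

namespace Fermat.Agent.S48x.Group

variable {k : Type*} [Field k]

/-- a nilpotent `2 × 2` matrix squares to zero. -/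
theorem sq_eq_zero_of_pow_eq_zero {N : Matrix (Fin 2) (Fin 2) k} {m : ℕ} (h : N ^ m = 0) :
    N * N = 0 := by
  have hm : m ≠ 0 := by
    rintro rfl
    rw [pow_zero] at h
    exact one_ne_zero h
  have hdet : N.det = 0 := by
    have : (N ^ m).det = 0 := by rw [h]; simp
    rw [Matrix.det_pow] at this
    exact pow_eq_zero_iff hm |>.mp this
  have hsq : N * N = N.trace • N := by
    rw [cayley_hamilton_two, hdet, zero_smul, sub_zero]
  have hpow : ∀ j : ℕ, N ^ (j + 1) = N.trace ^ j • N := by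
    intro j
    induction j with
    | zero => simp
    | succ j ih => rw [pow_succ, ih, Matrix.smul_mul, hsq, smul_smul, pow_succ]
  obtain ⟨j, rfl⟩ := Nat.exists_eq_succ_of_ne_zero hm
  rw [Nat.succ_eq_add_one, hpow j] at h
  rcases smul_eq_zero.mp h with h0 | h0
  · have : N.trace = 0 := by
      rcases Nat.eq_zero_or_pos j with hj | hj
      · subst hj
        rw [pow_zero] at h0
        exact absurd h0 one_ne_zero
      · exact pow_eq_zero_iff (by omega) |>.mp h0
    rw [hsq, this, zero_smul]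
  · rw [h0, mul_zero]

/-- elements of order `ℓ = char k` are unipotent. -/
theorem sub_one_sq_eq_zero_of_pow_char {ℓ : ℕ} [Fact ℓ.Prime] [CharP k ℓ]
    {U : Matrix (Fin 2) (Fin 2) k} (hU : U ^ ℓ = 1) : (U - 1) * (U - 1) = 0 := by
  apply sq_eq_zero_of_pow_eq_zero (m := ℓ)
  rw [sub_pow_char_of_commute ℓ (Commute.one_right U), hU, one_pow, sub_self]

theorem upper_pow (a : k) (i : ℕ) :
    (!![1, a; 0, 1] : Matrix (Fin 2) (Fin 2) k) ^ i = !![1, (i : k) * a; 0, 1] := by
  induction i with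
  | zero =>
    ext r s
    fin_cases r <;> fin_cases s <;> simp
  | succ i ih =>
    rw [pow_succ, ih]
    ext r s
    fin_cases r <;> fin_cases s <;> simp [Matrix.mul_apply, Fin.sum_univ_two]
    ring

theorem lower_pow (c : k) (j : ℕ) :
    (!![1, 0; c, 1] : Matrix (Fin 2) (Fin 2) k) ^ j = !![1, 0; (j : k) * c, 1] := by
  induction j with
  | zero =>
    ext r s
    fin_cases r <;> fin_cases s <;> simp
  | succ j ih =>
    rw [pow_succ, ih]
    ext r s
    fin_cases r <;> fin_cases s <;> simp [Matrix.mul_apply, Fin.sum_univ_two]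
    ring

/-- the product `A^i B^j A^m` of standard unipotents. -/
theorem upper_lower_upper (a c : k) (i j m : ℕ) :
    (!![1, a; 0, 1] : Matrix (Fin 2) (Fin 2) k) ^ i * !![1, 0; c, 1] ^ j * !![1, a; 0, 1] ^ m
      = !![1 + (i : k) * a * ((j : k) * c),
            (1 + (i : k) * a * ((j : k) * c)) * ((m : k) * a) + (i : k) * a;
          (j : k) * c, (j : k) * c * ((m : k) * a) + 1] := by
  rw [upper_pow, lower_pow, upper_pow]
  ext r s
  fin_cases r <;> fin_cases s <;> simp [Matrix.mul_apply, Fin.sum_univ_two]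

/-- the matrix with columns `v`, `v'`. -/
def colMat (v v' : Fin 2 → k) : Matrix (Fin 2) (Fin 2) k := !![v 0, v' 0; v 1, v' 1]

theorem mul_colMat (M : Matrix (Fin 2) (Fin 2) k) (v v' : Fin 2 → k) :
    M * colMat v v' = colMat (M.mulVec v) (M.mulVec v') := by
  ext r s
  fin_cases r <;> fin_cases s <;>
    simp [colMat, Matrix.mul_apply, Matrix.mulVec, dotProduct, Fin.sum_univ_two]

theorem colMat_mul_upper (v v' : Fin 2 → k) (a b : k) :
    colMat v v' * !![1, a; 0, b] = colMat v (a • v + b • v') := by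
  ext r s
  fin_cases r <;> fin_cases s <;>
    simp [colMat, Matrix.mul_apply, Fin.sum_univ_two, mul_comm]

theorem colMat_mul_lower (v v' : Fin 2 → k) (a b : k) :
    colMat v v' * !![a, 0; b, 1] = colMat (a • v + b • v') v' := by
  ext r s
  fin_cases r <;> fin_cases s <;>
    simp [colMat, Matrix.mul_apply, Fin.sum_univ_two, mul_comm]

theorem det_colMat_ne_zero {v v' : Fin 2 → k} (hv : v ≠ 0) (hv' : ∀ c : k, v' ≠ c • v) :
    (colMat v v').det ≠ 0 := by
  rw [colMat, Matrix.det_fin_two_of]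
  intro h
  by_cases h0 : v 0 = 0
  · have h1 : v 1 ≠ 0 := by
      intro h1
      apply hv
      funext i
      fin_cases i
      · exact h0
      · exact h1
    rw [h0, zero_mul, zero_sub, neg_eq_zero] at h
    have h2 : v' 0 = 0 := by
      rcases mul_eq_zero.mp h with h2 | h2
      · exact h2
      · exact absurd h2 h1
    apply hv' (v' 1 / v 1)
    funext i
    fin_cases i
    · simp [h0, h2]
    · simp [div_mul_cancel₀ _ h1]
  · apply hv' (v' 0 / v 0)
    funext i
    fin_cases i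
    · simp [div_mul_cancel₀ _ h0]
    · simp only [Fin.mk_one, Fin.isValue, Pi.smul_apply, smul_eq_mul]
      field_simp
      linear_combination h

/-- every vector is a combination of two independent ones. -/
theorem exists_eq_smul_add_smul {v v' : Fin 2 → k} (hdet : (colMat v v').det ≠ 0)
    (w : Fin 2 → k) : ∃ a b : k, w = a • v + b • v' := by
  rw [colMat, Matrix.det_fin_two_of] at hdet
  refine ⟨(w 0 * v' 1 - v' 0 * w 1) / (v 0 * v' 1 - v' 0 * v 1),
    (v 0 * w 1 - w 0 * v 1) / (v 0 * v' 1 - v' 0 * v 1), ?_⟩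
  funext i
  fin_cases i
  · simp only [Fin.zero_eta, Fin.isValue, Pi.add_apply, Pi.smul_apply, smul_eq_mul]
    rw [div_mul_eq_mul_div, div_mul_eq_mul_div, ← add_div, eq_div_iff hdet]
    ring
  · simp only [Fin.mk_one, Fin.isValue, Pi.add_apply, Pi.smul_apply, smul_eq_mul]
    rw [div_mul_eq_mul_div, div_mul_eq_mul_div, ← add_div, eq_div_iff hdet]
    ring

theorem mul_left_cancel_of_det_ne_zero {P X Y : Matrix (Fin 2) (Fin 2) k} (hP : P.det ≠ 0)
    (h : P * X = P * Y) : X = Y := by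
  have hu : IsUnit P.det := isUnit_iff_ne_zero.mpr hP
  calc X = P⁻¹ * (P * X) := by rw [← Matrix.mul_assoc, Matrix.nonsing_inv_mul _ hu, Matrix.one_mul]
    _ = P⁻¹ * (P * Y) := by rw [h]
    _ = Y := by rw [← Matrix.mul_assoc, Matrix.nonsing_inv_mul _ hu, Matrix.one_mul]

theorem mul_right_cancel_of_det_ne_zero {P X Y : Matrix (Fin 2) (Fin 2) k} (hP : P.det ≠ 0)
    (h : X * P = Y * P) : X = Y := by
  have hu : IsUnit P.det := isUnit_iff_ne_zero.mpr hP
  calc X = (X * P) * P⁻¹ := by rw [Matrix.mul_assoc, Matrix.mul_nonsing_inv _ hu, Matrix.mul_one]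
    _ = (Y * P) * P⁻¹ := by rw [h]
    _ = Y := by rw [Matrix.mul_assoc, Matrix.mul_nonsing_inv _ hu, Matrix.mul_one]

/-- if `U P = P A` then `(U - 1)² P = P (A - 1)²`. -/
theorem sub_one_sq_conj {U P A : Matrix (Fin 2) (Fin 2) k} (h : U * P = P * A) :
    (U - 1) * (U - 1) * P = P * ((A - 1) * (A - 1)) := by
  have h1 : (U - 1) * P = P * (A - 1) := by
    rw [Matrix.sub_mul, Matrix.mul_sub, h, Matrix.one_mul, Matrix.mul_one]
  rw [Matrix.mul_assoc, h1, ← Matrix.mul_assoc, h1, Matrix.mul_assoc]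

/-- a unipotent `U ≠ 1` fixing the first column of `P` is upper unitriangular in the basis `P`. -/
theorem conj_upper {U : Matrix (Fin 2) (Fin 2) k} (hU : (U - 1) * (U - 1) = 0) (hU1 : U ≠ 1)
    {v v' : Fin 2 → k} (hdet : (colMat v v').det ≠ 0) (hv : U.mulVec v = v) :
    ∃ a : k, a ≠ 0 ∧ U * colMat v v' = colMat v v' * !![1, a; 0, 1] := by
  obtain ⟨a, b, hab⟩ := exists_eq_smul_add_smul hdet (U.mulVec v')
  have h1 : U * colMat v v' = colMat v v' * !![1, a; 0, b] := by
    rw [mul_colMat, colMat_mul_upper, hv, hab]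
  have h2 := sub_one_sq_conj h1
  rw [hU, Matrix.zero_mul] at h2
  have h3 : (!![1, a; 0, b] - 1 : Matrix (Fin 2) (Fin 2) k) * (!![1, a; 0, b] - 1) = 0 :=
    mul_left_cancel_of_det_ne_zero hdet (by rw [← h2, Matrix.mul_zero])
  have h4 := congrFun (congrFun h3 1) 1
  simp [Matrix.mul_apply, Fin.sum_univ_two] at h4
  have hb : b = 1 := by
    have : b - 1 = 0 := h4
    exact sub_eq_zero.mp this
  subst hb
  refine ⟨a, ?_, h1⟩
  rintro rfl
  apply hU1
  apply mul_right_cancel_of_det_ne_zero hdet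
  rw [h1, Matrix.one_mul]
  have : (!![1, 0; 0, 1] : Matrix (Fin 2) (Fin 2) k) = 1 := by
    ext r s
    fin_cases r <;> fin_cases s <;> simp
  rw [this, Matrix.mul_one]

/-- a unipotent `U ≠ 1` fixing the second column of `P` is lower unitriangular in the basis
`P`. -/
theorem conj_lower {U : Matrix (Fin 2) (Fin 2) k} (hU : (U - 1) * (U - 1) = 0) (hU1 : U ≠ 1)
    {v v' : Fin 2 → k} (hdet : (colMat v v').det ≠ 0) (hv : U.mulVec v' = v') :
    ∃ c : k, c ≠ 0 ∧ U * colMat v v' = colMat v v' * !![1, 0; c, 1] := by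
  obtain ⟨a, b, hab⟩ := exists_eq_smul_add_smul hdet (U.mulVec v)
  have h1 : U * colMat v v' = colMat v v' * !![a, 0; b, 1] := by
    rw [mul_colMat, colMat_mul_lower, hv, hab]
  have h2 := sub_one_sq_conj h1
  rw [hU, Matrix.zero_mul] at h2
  have h3 : (!![a, 0; b, 1] - 1 : Matrix (Fin 2) (Fin 2) k) * (!![a, 0; b, 1] - 1) = 0 :=
    mul_left_cancel_of_det_ne_zero hdet (by rw [← h2, Matrix.mul_zero])
  have h4 := congrFun (congrFun h3 0) 0
  simp [Matrix.mul_apply, Fin.sum_univ_two] at h4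
  have ha : a = 1 := by
    have : a - 1 = 0 := h4
    exact sub_eq_zero.mp this
  subst ha
  refine ⟨b, ?_, h1⟩
  rintro rfl
  apply hU1
  apply mul_right_cancel_of_det_ne_zero hdet
  rw [h1, Matrix.one_mul]
  have : (!![1, 0; 0, 1] : Matrix (Fin 2) (Fin 2) k) = 1 := by
    ext r s
    fin_cases r <;> fin_cases s <;> simp
  rw [this, Matrix.mul_one]

theorem pow_conj {U P A : Matrix (Fin 2) (Fin 2) k} (h : U * P = P * A) (i : ℕ) :
    U ^ i * P = P * A ^ i := by
  induction i with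
  | zero => simp
  | succ i ih => rw [pow_succ, Matrix.mul_assoc, h, ← Matrix.mul_assoc, ih, Matrix.mul_assoc,
      ← pow_succ]

theorem natCast_ne_zero_of_lt {ℓ : ℕ} [CharP k ℓ] {j : ℕ} (h0 : 0 < j) (hj : j < ℓ) :
    (j : k) ≠ 0 := by
  intro h
  rw [CharP.cast_eq_zero_iff k ℓ] at h
  exact absurd (Nat.le_of_dvd h0 h) (by omega)

theorem natCast_inj_of_lt {ℓ : ℕ} [CharP k ℓ] {i i' : ℕ} (hi : i < ℓ) (hi' : i' < ℓ)
    (h : (i : k) = (i' : k)) : i = i' :=
  CharP.natCast_injOn_Iio k ℓ hi hi' h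

/-- the words `U^i U'^j U^m` are pairwise distinct. -/
theorem triple_injective {ℓ : ℕ} [CharP k ℓ] {U U' P : Matrix (Fin 2) (Fin 2) k}
    (hP : P.det ≠ 0) {a c : k} (ha : a ≠ 0) (hc : c ≠ 0)
    (hU : U * P = P * !![1, a; 0, 1]) (hU' : U' * P = P * !![1, 0; c, 1])
    {i j m i' j' m' : ℕ} (hi : i < ℓ) (hj0 : 0 < j) (hj : j < ℓ) (hm : m < ℓ)
    (hi' : i' < ℓ) (hj0' : 0 < j') (hj' : j' < ℓ) (hm' : m' < ℓ)
    (h : U ^ i * U' ^ j * U ^ m = U ^ i' * U' ^ j' * U ^ m') : i = i' ∧ j = j' ∧ m = m' := by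
  have key : ∀ i j m : ℕ, U ^ i * U' ^ j * U ^ m * P
      = P * (!![1, a; 0, 1] ^ i * !![1, 0; c, 1] ^ j * !![1, a; 0, 1] ^ m) := by
    intro i j m
    rw [Matrix.mul_assoc, pow_conj hU, ← Matrix.mul_assoc, Matrix.mul_assoc (U ^ i),
      pow_conj hU', ← Matrix.mul_assoc, pow_conj hU, Matrix.mul_assoc, Matrix.mul_assoc,
      Matrix.mul_assoc]
  have h1 := mul_left_cancel_of_det_ne_zero hP ((key i j m).symm.trans
    ((congrArg (· * P) h).trans (key i' j' m')))
  rw [upper_lower_upper, upper_lower_upper] at h1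
  have e10 := congrFun (congrFun h1 1) 0
  have e00 := congrFun (congrFun h1 0) 0
  have e11 := congrFun (congrFun h1 1) 1
  simp only [Matrix.of_apply, Matrix.cons_val', Matrix.cons_val_zero, Matrix.cons_val_one,
    Matrix.cons_val_fin_one] at e10 e00 e11
  have hjj : (j : k) = (j' : k) := mul_right_cancel₀ hc e10
  have hj_eq : j = j' := natCast_inj_of_lt hj hj' hjj
  subst hj_eq
  have hjne : (j : k) ≠ 0 := natCast_ne_zero_of_lt (ℓ := ℓ) hj0 hj
  have hii : (i : k) = (i' : k) := by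
    have : (i : k) * (a * ((j : k) * c)) = (i' : k) * (a * ((j : k) * c)) := by
      linear_combination e00
    exact mul_right_cancel₀ (mul_ne_zero ha (mul_ne_zero hjne hc)) this
  have hmm : (m : k) = (m' : k) := by
    have : (m : k) * (a * ((j : k) * c)) = (m' : k) * (a * ((j : k) * c)) := by
      linear_combination e11
    exact mul_right_cancel₀ (mul_ne_zero ha (mul_ne_zero hjne hc)) this
  exact ⟨natCast_inj_of_lt hi hi' hii, rfl, natCast_inj_of_lt hm hm' hmm⟩

/-- two non-trivial unipotents with independent fixed vectors force `ℓ² (ℓ - 1) ≤ |G|`. -/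
theorem card_ge_of_two_unipotents {ℓ : ℕ} [Fact ℓ.Prime] [CharP k ℓ]
    (G : Subgroup (GL (Fin 2) k)) [Finite G] {u u' : G} {v v' : Fin 2 → k}
    (hdet : (colMat v v').det ≠ 0) (hu : u ^ ℓ = 1) (hu1 : u ≠ 1) (hu' : u' ^ ℓ = 1)
    (hu1' : u' ≠ 1) (hv : (matOf u).mulVec v = v) (hv' : (matOf u').mulVec v' = v') :
    ℓ * (ℓ - 1) * ℓ ≤ Nat.card G := by
  have hUℓ : matOf u ^ ℓ = 1 := by rw [← matOf_pow, hu, matOf_one]
  have hUℓ' : matOf u' ^ ℓ = 1 := by rw [← matOf_pow, hu', matOf_one]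
  have hU1 : matOf u ≠ 1 := fun h => hu1 (matOf_injective G (h.trans matOf_one.symm))
  have hU1' : matOf u' ≠ 1 := fun h => hu1' (matOf_injective G (h.trans matOf_one.symm))
  obtain ⟨a, ha, hA⟩ := conj_upper (sub_one_sq_eq_zero_of_pow_char hUℓ) hU1 hdet hv
  obtain ⟨c, hc, hC⟩ := conj_lower (sub_one_sq_eq_zero_of_pow_char hUℓ') hU1' hdet hv'
  let f : Fin ℓ × Fin (ℓ - 1) × Fin ℓ → G := fun t =>
    u ^ (t.1 : ℕ) * u' ^ ((t.2.1 : ℕ) + 1) * u ^ (t.2.2 : ℕ)
  have hf : Function.Injective f := by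
    rintro ⟨i, j, m⟩ ⟨i', j', m'⟩ h
    have h' : matOf u ^ (i : ℕ) * matOf u' ^ ((j : ℕ) + 1) * matOf u ^ (m : ℕ)
        = matOf u ^ (i' : ℕ) * matOf u' ^ ((j' : ℕ) + 1) * matOf u ^ (m' : ℕ) := by
      have := matOf_eq_of_eq h
      simpa only [f, matOf_mul, matOf_pow] using this
    have hjlt : (j : ℕ) + 1 < ℓ := by have := j.isLt; omega
    have hjlt' : (j' : ℕ) + 1 < ℓ := by have := j'.isLt; omega
    obtain ⟨e1, e2, e3⟩ := triple_injective (ℓ := ℓ) hdet ha hc hA hC i.isLt (Nat.succ_pos _) hjlt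
      m.isLt i'.isLt (Nat.succ_pos _) hjlt' m'.isLt h'
    have e2' : (j : ℕ) = (j' : ℕ) := by omega
    rw [Fin.ext e1, Fin.ext e2', Fin.ext e3]
  have := Nat.card_le_card_of_injective f hf
  simpa [Nat.card_eq_fintype_card, Fintype.card_prod, mul_assoc] using this

/-- **The case `ℓ ∣ |G|`**: a semisimple subgroup of `GL₂(k)`, `char k = ℓ`, of order divisible
by `ℓ` has at least `ℓ² (ℓ - 1)` elements. -/
theorem card_ge_of_semisimple {ℓ : ℕ} [Fact ℓ.Prime] [CharP k ℓ]
    (G : Subgroup (GL (Fin 2) k)) [Finite G]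
    (hss : ∀ v : Fin 2 → k, v ≠ 0 →
      (∀ g ∈ G, ∃ c : k, (g : Matrix (Fin 2) (Fin 2) k).mulVec v = c • v) →
      ∃ w : Fin 2 → k, (∀ c : k, w ≠ c • v) ∧
        ∀ g ∈ G, ∃ c : k, (g : Matrix (Fin 2) (Fin 2) k).mulVec w = c • w)
    (hdvd : ℓ ∣ Nat.card G) : ℓ * (ℓ - 1) * ℓ ≤ Nat.card G := by
  have hℓ : ℓ.Prime := Fact.out
  obtain ⟨u, hord⟩ := exists_prime_orderOf_dvd_card' (G := G) ℓ hdvd
  have hu : u ^ ℓ = 1 := by rw [← hord]; exact pow_orderOf_eq_one u
  have hu1 : u ≠ 1 := by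
    rintro rfl
    rw [orderOf_one] at hord
    exact hℓ.one_lt.ne hord
  have hUℓ : matOf u ^ ℓ = 1 := by rw [← matOf_pow, hu, matOf_one]
  have hU1 : matOf u ≠ 1 := fun h => hu1 (matOf_injective G (h.trans matOf_one.symm))
  have hNN := sub_one_sq_eq_zero_of_pow_char hUℓ
  -- a non-zero vector in the image of `N = U - 1`
  have hN0 : matOf u - 1 ≠ 0 := fun h => hU1 (sub_eq_zero.mp h)
  obtain ⟨w, hw⟩ : ∃ w : Fin 2 → k, (matOf u - 1).mulVec w ≠ 0 := by
    by_contra hcon
    simp only [not_exists, not_not] at hcon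
    apply hN0
    ext r s
    have := congrFun (hcon (Pi.single s 1)) r
    rw [Matrix.mulVec_single_one] at this
    simpa using this
  set v : Fin 2 → k := (matOf u - 1).mulVec w with hvdef
  have hNv : (matOf u - 1).mulVec v = 0 := by
    rw [hvdef, Matrix.mulVec_mulVec, hNN, Matrix.zero_mulVec]
  have hUv : (matOf u).mulVec v = v := by
    rw [Matrix.sub_mulVec, Matrix.one_mulVec] at hNv
    exact sub_eq_zero.mp hNv
  -- `v` is not a common eigenvector
  have hnot : ¬ ∀ g ∈ G, ∃ c : k, (g : Matrix (Fin 2) (Fin 2) k).mulVec v = c • v := by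
    intro hcom
    obtain ⟨w', hw', hcom'⟩ := hss v hw hcom
    obtain ⟨c, hc⟩ := hcom' (u : GL (Fin 2) k) u.2
    have hw'0 : w' ≠ 0 := by
      have := hw' 0
      rwa [zero_smul] at this
    have hc' : (matOf u).mulVec w' = c • w' := hc
    have h1 : (matOf u - 1).mulVec w' = (c - 1) • w' := by
      rw [Matrix.sub_mulVec, Matrix.one_mulVec, hc', sub_smul, one_smul]
    have h2 : (matOf u - 1).mulVec ((matOf u - 1).mulVec w') = 0 := by
      rw [Matrix.mulVec_mulVec, hNN, Matrix.zero_mulVec]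
    rw [h1, Matrix.mulVec_smul, h1, smul_smul] at h2
    have hc1 : c = 1 := by
      rcases smul_eq_zero.mp h2 with h3 | h3
      · have : c - 1 = 0 := mul_self_eq_zero.mp h3
        exact sub_eq_zero.mp this
      · exact absurd h3 hw'0
    rw [hc1, one_smul] at hc'
    apply hU1
    apply mul_right_cancel_of_det_ne_zero (det_colMat_ne_zero hw hw')
    rw [mul_colMat, hUv, hc', Matrix.one_mul]
  simp only [not_forall, not_exists] at hnot
  obtain ⟨g, hgG, hg⟩ := hnot
  let g' : G := ⟨g, hgG⟩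
  have hdet := det_colMat_ne_zero hw hg
  have hconj : matOf (g' * u * g'⁻¹)
      = (g : Matrix (Fin 2) (Fin 2) k) * matOf u
        * ((g⁻¹ : GL (Fin 2) k) : Matrix (Fin 2) (Fin 2) k) := by
    simp [matOf, g']
  have hfix : (matOf (g' * u * g'⁻¹)).mulVec ((g : Matrix (Fin 2) (Fin 2) k).mulVec v)
      = (g : Matrix (Fin 2) (Fin 2) k).mulVec v := by
    rw [hconj, Matrix.mulVec_mulVec, Matrix.mul_assoc, Matrix.mul_assoc]
    have : ((g⁻¹ : GL (Fin 2) k) : Matrix (Fin 2) (Fin 2) k) * (g : Matrix (Fin 2) (Fin 2) k)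
        = 1 := by
      rw [← Units.val_mul, inv_mul_cancel, Units.val_one]
    rw [this, Matrix.mul_one, ← Matrix.mulVec_mulVec, hUv]
  exact card_ge_of_two_unipotents G hdet hu hu1 (by rw [conj_pow, hu, mul_one, mul_inv_cancel])
    (fun h => hu1 (conj_eq_one_iff.mp h)) hUv hfix

end Fermat.Agent.S48x.Group
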