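import Mathlib
import Fermat.Agent.S48x.Group.Tori
import Fermat.Agent.S48x.Group.Unipotent

/-!
# P-S48 (Deligne–Serre), block DS3: the group-theoretic bound (DS Prop. 7.2)

Let `k` be the prime field `𝔽_ℓ`, `G ≤ GL₂(k)` a semisimple subgroup and `H ⊆ G` a subset of
density `≥ 1 - 1/D`, `D ≥ 24`, whose elements have at most `M` distinct characteristic
polynomials.  Then `|G| ≤ (4 M + 1)⁴`, a bound independent of `ℓ`.
-/

set_option autoImplicit false

open Matrix

namespace Fermat.Agent.S48x.Group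

variable {k : Type*} [Field k]

theorem card_GL2_le [Fintype k] [DecidableEq k] :
    Nat.card (GL (Fin 2) k) ≤ Fintype.card k ^ 4 := by
  let f : GL (Fin 2) k → k × k × k × k := fun g =>
    ((g : Matrix (Fin 2) (Fin 2) k) 0 0, (g : Matrix (Fin 2) (Fin 2) k) 0 1,
      (g : Matrix (Fin 2) (Fin 2) k) 1 0, (g : Matrix (Fin 2) (Fin 2) k) 1 1)
  have hf : Function.Injective f := by
    intro g h hgh
    simp only [f, Prod.mk.injEq] at hgh
    apply Units.ext
    ext r s
    fin_cases r <;> fin_cases s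
    · exact hgh.1
    · exact hgh.2.1
    · exact hgh.2.2.1
    · exact hgh.2.2.2
  have := Nat.card_le_card_of_injective f hf
  simpa [Nat.card_eq_fintype_card, Fintype.card_prod, pow_succ, mul_assoc] using this

/-- at most `2 |k|²` elements of `GL₂(k)` have a given trace and determinant. -/
theorem card_fibre_le [Fintype k] [DecidableEq k] (S : Finset (GL (Fin 2) k)) (t d : k)
    (hS : ∀ g ∈ S, (g : Matrix (Fin 2) (Fin 2) k).trace = t ∧
      (g : Matrix (Fin 2) (Fin 2) k).det = d) :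
    S.card ≤ 2 * Fintype.card k ^ 2 := by
  let φ : GL (Fin 2) k → (k × k) ⊕ (k × k) := fun g =>
    if (g : Matrix (Fin 2) (Fin 2) k) 0 1 ≠ 0 then
      Sum.inl ((g : Matrix (Fin 2) (Fin 2) k) 0 0, (g : Matrix (Fin 2) (Fin 2) k) 0 1)
    else Sum.inr ((g : Matrix (Fin 2) (Fin 2) k) 0 0, (g : Matrix (Fin 2) (Fin 2) k) 1 0)
  have hinj : Set.InjOn φ (S : Set (GL (Fin 2) k)) := by
    intro g hg h hh hgh
    obtain ⟨htg, hdg⟩ := hS g hg
    obtain ⟨hth, hdh⟩ := hS h hh
    rw [Matrix.trace_fin_two] at htg hth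
    rw [Matrix.det_fin_two] at hdg hdh
    apply Units.ext
    simp only [φ] at hgh
    by_cases hg01 : (g : Matrix (Fin 2) (Fin 2) k) 0 1 ≠ 0
    · by_cases hh01 : (h : Matrix (Fin 2) (Fin 2) k) 0 1 ≠ 0
      · rw [if_pos hg01, if_pos hh01] at hgh
        have h' := Sum.inl.inj hgh
        simp only [Prod.mk.injEq] at h'
        obtain ⟨e00, e01⟩ := h'
        have e11 : (g : Matrix (Fin 2) (Fin 2) k) 1 1 = (h : Matrix (Fin 2) (Fin 2) k) 1 1 := by
          linear_combination htg - hth - e00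
        have e10 : (g : Matrix (Fin 2) (Fin 2) k) 1 0 = (h : Matrix (Fin 2) (Fin 2) k) 1 0 := by
          apply mul_left_cancel₀ hg01
          rw [e11, e00] at hdg
          linear_combination hdh - hdg - (h : Matrix (Fin 2) (Fin 2) k) 1 0 * e01
        ext r s
        fin_cases r <;> fin_cases s
        · exact e00
        · exact e01
        · exact e10
        · exact e11
      · rw [if_pos hg01, if_neg hh01] at hgh
        exact absurd hgh (by simp)
    · by_cases hh01 : (h : Matrix (Fin 2) (Fin 2) k) 0 1 ≠ 0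
      · rw [if_neg hg01, if_pos hh01] at hgh
        exact absurd hgh (by simp)
      · rw [if_neg hg01, if_neg hh01] at hgh
        have h' := Sum.inr.inj hgh
        simp only [Prod.mk.injEq] at h'
        obtain ⟨e00, e10⟩ := h'
        have e11 : (g : Matrix (Fin 2) (Fin 2) k) 1 1 = (h : Matrix (Fin 2) (Fin 2) k) 1 1 := by
          linear_combination htg - hth - e00
        have e01 : (g : Matrix (Fin 2) (Fin 2) k) 0 1 = (h : Matrix (Fin 2) (Fin 2) k) 0 1 := by
          rw [not_not] at hg01 hh01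
          rw [hg01, hh01]
        ext r s
        fin_cases r <;> fin_cases s
        · exact e00
        · exact e01
        · exact e10
        · exact e11
  have h1 := Finset.card_le_card_of_injOn (t := Finset.univ) φ
    (fun _ _ => Finset.mem_coe.mpr (Finset.mem_univ _)) hinj
  have h2 : (Finset.univ : Finset ((k × k) ⊕ (k × k))).card = 2 * Fintype.card k ^ 2 := by
    rw [Finset.card_univ, Fintype.card_sum, Fintype.card_prod]
    ring
  rw [h2] at h1
  exact h1

/-- trace and determinant separate scalar matrices. -/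
theorem scalar_eq_of_same_trace_det {a b : Matrix (Fin 2) (Fin 2) k} (ha : IsScalarMat a)
    (hb : IsScalarMat b) (ht : a.trace = b.trace) (hd : a.det = b.det) : a = b := by
  obtain ⟨c, rfl⟩ := ha
  obtain ⟨c', rfl⟩ := hb
  have htr : ∀ x : k, (x • (1 : Matrix (Fin 2) (Fin 2) k)).trace = x + x := by
    intro x
    rw [Matrix.trace_fin_two]
    simp
  have hdt : ∀ x : k, (x • (1 : Matrix (Fin 2) (Fin 2) k)).det = x * x := by
    intro x
    rw [Matrix.det_fin_two]
    simp
  have ht' : c + c = c' + c' := by rw [← htr, ← htr]; exact ht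
  have hd' : c * c = c' * c' := by rw [← hdt, ← hdt]; exact hd
  have h0 : (c - c') * (c - c') = 0 := by
    linear_combination c * ht' - hd'
  have : c - c' = 0 := mul_self_eq_zero.mp h0
  rw [sub_eq_zero.mp this]

/-- pure arithmetic: `ℓ² (ℓ - 1) ≤ 4 M ℓ²` forces `ℓ ≤ 4 M + 1`. -/
theorem le_of_cube_le {ℓ M n h : ℕ} (hℓ : 0 < ℓ) (h1 : ℓ * (ℓ - 1) * ℓ ≤ n) (h2 : n ≤ 2 * h)
    (h3 : h ≤ 2 * ℓ ^ 2 * M) : ℓ ≤ 4 * M + 1 := by
  have h4 : ℓ * ℓ * (ℓ - 1) ≤ ℓ * ℓ * (4 * M) := by
    calc ℓ * ℓ * (ℓ - 1) = ℓ * (ℓ - 1) * ℓ := by ring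
      _ ≤ n := h1
      _ ≤ 2 * h := h2
      _ ≤ 2 * (2 * ℓ ^ 2 * M) := Nat.mul_le_mul_left 2 h3
      _ = ℓ * ℓ * (4 * M) := by ring
  have h5 : ℓ - 1 ≤ 4 * M := Nat.le_of_mul_le_mul_left h4 (Nat.mul_pos hℓ hℓ)
  omega

/-- **The case `ℓ ∣ |G|`.** -/
theorem card_le_of_dvd [Fintype k] [DecidableEq k] {ℓ : ℕ} [Fact ℓ.Prime]
    (hk : Fintype.card k = ℓ) [CharP k ℓ] (G : Subgroup (GL (Fin 2) k))
    (hss : ∀ v : Fin 2 → k, v ≠ 0 →
      (∀ g ∈ G, ∃ c : k, (g : Matrix (Fin 2) (Fin 2) k).mulVec v = c • v) →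
      ∃ w : Fin 2 → k, (∀ c : k, w ≠ c • v) ∧
        ∀ g ∈ G, ∃ c : k, (g : Matrix (Fin 2) (Fin 2) k).mulVec w = c • w)
    (hdvd : ℓ ∣ Nat.card G) (H : Finset (GL (Fin 2) k)) (M : ℕ)
    (h2 : Nat.card G ≤ 2 * H.card)
    (hM : (H.image fun h : GL (Fin 2) k => ((h : Matrix (Fin 2) (Fin 2) k).trace,
      (h : Matrix (Fin 2) (Fin 2) k).det)).card ≤ M) :
    Nat.card G ≤ (4 * M + 1) ^ 4 := by
  have hℓ : ℓ.Prime := Fact.out
  have hge := card_ge_of_semisimple G hss hdvd
  have hH : H.card ≤ 2 * ℓ ^ 2 * M := by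
    have h1 := Finset.card_le_mul_card_image (f := fun h : GL (Fin 2) k =>
      ((h : Matrix (Fin 2) (Fin 2) k).trace, (h : Matrix (Fin 2) (Fin 2) k).det)) H
      (2 * ℓ ^ 2) (by
        intro b _
        rw [← hk]
        apply card_fibre_le _ b.1 b.2
        intro g hg
        have := (Finset.mem_filter.mp hg).2
        exact ⟨congrArg Prod.fst this, congrArg Prod.snd this⟩)
    exact h1.trans (Nat.mul_le_mul_left _ hM)
  have hle : ℓ ≤ 4 * M + 1 := le_of_cube_le hℓ.pos hge h2 hH
  calc Nat.card G ≤ Nat.card (GL (Fin 2) k) := Subgroup.card_le_card_group G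
    _ ≤ Fintype.card k ^ 4 := card_GL2_le
    _ = ℓ ^ 4 := by rw [hk]
    _ ≤ (4 * M + 1) ^ 4 := Nat.pow_le_pow_left hle 4

/-- **The case `ℓ ∤ |G|`.** -/
theorem card_le_of_not_dvd [Fintype k] [DecidableEq k] (G : Subgroup (GL (Fin 2) k))
    (hcard : (Nat.card G : k) ≠ 0) (H : Finset (GL (Fin 2) k)) (hHG : ∀ h ∈ H, h ∈ G)
    (D M : ℕ) (hD : 24 ≤ D) (hdens : D * (Nat.card G - H.card) ≤ Nat.card G)
    (hM : (H.image fun h : GL (Fin 2) k => ((h : Matrix (Fin 2) (Fin 2) k).trace,
      (h : Matrix (Fin 2) (Fin 2) k).det)).card ≤ M) :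
    Nat.card G ≤ 48 * M := by
  classical
  let _ : Fintype G := Fintype.ofFinite _
  -- pull `H` back to `G`
  let τ : G → k × k := fun x => ((matOf x).trace, (matOf x).det)
  let H' : Finset G := Finset.univ.filter (fun x : G => (x : GL (Fin 2) k) ∈ H)
  have hH'card : H'.card = H.card := by
    apply Finset.card_bij (s := H') (t := H) (fun x _ => (x : GL (Fin 2) k))
    · intro x hx
      exact (Finset.mem_filter.mp hx).2
    · intro x _ y _ hxy
      exact Subtype.ext hxy
    · intro y hy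
      exact ⟨⟨y, hHG y hy⟩, Finset.mem_filter.mpr ⟨Finset.mem_univ _, hy⟩, rfl⟩
  have himg : ∀ S : Finset G, S ⊆ H' → (S.image τ).card ≤ M := by
    intro S hS
    refine le_trans (Finset.card_le_card ?_) hM
    intro b hb
    obtain ⟨x, hx, rfl⟩ := Finset.mem_image.mp hb
    exact Finset.mem_image.mpr ⟨(x : GL (Fin 2) k), (Finset.mem_filter.mp (hS hx)).2, rfl⟩
  have hcG : Nat.card G = Fintype.card G := Nat.card_eq_fintype_card
  have hcompl : H'ᶜ.card = Nat.card G - H.card := by
    rw [Finset.card_compl, hH'card, hcG]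
  have h24 : 24 * (Nat.card G - H.card) ≤ Nat.card G :=
    le_trans (Nat.mul_le_mul_right _ hD) hdens
  by_cases hns : ∃ g : G, ¬ IsScalarMat (matOf g)
  · obtain ⟨g, hg, hle⟩ := exists_large_torus G hcard hns
    have hD2 := disc2_matOf_ne_zero hcard hg
    let T : Finset G := Finset.univ.filter (fun x => x ∈ Subgroup.centralizer ({g} : Set G))
    have hT : Nat.card (Subgroup.centralizer ({g} : Set G)) = T.card :=
      card_subgroup_eq_card_filter _
    have hTcomm : ∀ x ∈ T, g * x = x * g := by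
      intro x hx
      exact mem_centralizer_singleton.mp (Finset.mem_filter.mp hx).2
    have hsplit : (T.filter (· ∈ H')).card + (T.filter (· ∉ H')).card = T.card :=
      Finset.card_filter_add_card_filter_not _
    have hS2 : (T.filter (· ∈ H')).card ≤ 2 * M := by
      have h1 := Finset.card_le_mul_card_image (f := τ) (T.filter (· ∈ H')) 2 (by
        intro b _
        refine card_le_two_of_same_trace_det hD2 _ ?_ b.1 b.2 ?_
        · intro h hh
          exact hTcomm h (Finset.mem_filter.mp (Finset.mem_filter.mp hh).1).1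
        · intro h hh
          have := (Finset.mem_filter.mp hh).2
          exact ⟨congrArg Prod.fst this, congrArg Prod.snd this⟩)
      exact h1.trans (Nat.mul_le_mul_left 2
        (himg _ (fun x hx => (Finset.mem_filter.mp hx).2)))
    have hE : (T.filter (· ∉ H')).card ≤ Nat.card G - H.card := by
      rw [← hcompl]
      apply Finset.card_le_card
      intro x hx
      exact Finset.mem_compl.mpr (Finset.mem_filter.mp hx).2
    rw [hT] at hle
    omega
  · simp only [not_exists, not_not] at hns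
    have hinj : Set.InjOn τ (H' : Set G) := by
      intro x _ y _ hxy
      apply matOf_injective
      exact scalar_eq_of_same_trace_det (hns x) (hns y) (congrArg Prod.fst hxy)
        (congrArg Prod.snd hxy)
    have h1 : H'.card ≤ M := by
      rw [← Finset.card_image_of_injOn hinj]
      exact himg H' (Finset.Subset.refl _)
    rw [hH'card] at h1
    omega

theorem forty_eight_mul_le (M : ℕ) : 48 * M ≤ (4 * M + 1) ^ 4 := by
  rcases Nat.eq_zero_or_pos M with rfl | hM
  · norm_num
  · have h1 : 1 ≤ 4 * M + 1 := by omega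
    have h2 : 48 * M ≤ (4 * M + 1) ^ 3 := by nlinarith [hM, Nat.mul_le_mul hM hM]
    calc 48 * M ≤ (4 * M + 1) ^ 3 := h2
      _ ≤ (4 * M + 1) ^ 4 := Nat.pow_le_pow_right h1 (by norm_num)

/-- **Deligne–Serre, Prop. 7.2 (group theory), effective form.**
Let `k = 𝔽_ℓ`, let `G ≤ GL₂(k)` be semisimple (every `G`-stable line has a `G`-stable
complement), and let `H ⊆ G` have density at least `1 - 1/D` with `D ≥ 24`.  If the elements
of `H` have at most `M` distinct (trace, determinant) pairs, then `|G| ≤ (4 M + 1)⁴`. -/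
theorem card_le_of_few_charpolys {k : Type*} [Field k] [Fintype k] [DecidableEq k] {l : ℕ}
    [Fact l.Prime] (hk : Fintype.card k = l) (G : Subgroup (GL (Fin 2) k))
    (hss : ∀ v : Fin 2 → k, v ≠ 0 →
      (∀ g ∈ G, ∃ c : k, (g : Matrix (Fin 2) (Fin 2) k).mulVec v = c • v) →
      ∃ w : Fin 2 → k, (∀ c : k, w ≠ c • v) ∧
        ∀ g ∈ G, ∃ c : k, (g : Matrix (Fin 2) (Fin 2) k).mulVec w = c • w)
    (H : Finset (GL (Fin 2) k)) (hHG : ∀ h ∈ H, h ∈ G) (D M : ℕ) (hD : 24 ≤ D)
    (hdens : D * (Nat.card G - H.card) ≤ Nat.card G)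
    (hM : (H.image fun h : GL (Fin 2) k => ((h : Matrix (Fin 2) (Fin 2) k).trace,
      (h : Matrix (Fin 2) (Fin 2) k).det)).card ≤ M) :
    Nat.card G ≤ (4 * M + 1) ^ 4 := by
  have : CharP k l := charP_of_card_eq_prime hk
  by_cases hcard : (Nat.card G : k) = 0
  · have hdvd : l ∣ Nat.card G := (CharP.cast_eq_zero_iff k l _).mp hcard
    have h24 : 24 * (Nat.card G - H.card) ≤ Nat.card G :=
      le_trans (Nat.mul_le_mul_right _ hD) hdens
    exact card_le_of_dvd hk G hss hdvd H M (by omega) hM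
  · exact (card_le_of_not_dvd G hcard H hHG D M hD hdens hM).trans (forty_eight_mul_le M)

end Fermat.Agent.S48x.Group
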