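import Mathlib
import Fermat.Agent.S48x.Group.Main
import Fermat.Agent.S48x.Assembly.Defs

/-!
# P-S48 (Deligne–Serre), block DS3: the group-theoretic input of the assembly

`Assembly.GroupBound` (the hypothesis `hGB` of `Assembly.exists_card_bound`) holds.
-/

set_option autoImplicit false

namespace Fermat.Agent.S48x.Group

/-- **DS3 discharged**: Deligne–Serre Proposition 7.2 over the prime fields, in the shape
consumed by the assembly. -/
theorem groupBound : Fermat.Agent.S48x.Assembly.GroupBound := by
  intro ℓ _ G hss H hHG D M hD hdens hM
  exact card_le_of_few_charpolys (ZMod.card ℓ) G hss H hHG D M hD hdens hM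

end Fermat.Agent.S48x.Group
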